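import Mathlib
import Fermat.Agent.Lib.RR.OfSep

set_option autoImplicit false
set_option linter.unusedSectionVars false
set_option linter.unusedVariables false
set_option linter.style.haveILetI false

/-!
# The curve `H_P : X₁ X₂ (X₁ - X₂)^(q-1) = c` (basic algebra)

`K` a field, `F / K` a field generated by `X₁, X₂` with `X₁ X₂ (X₁ - X₂)^(q-1) = c`, `c ≠ 0`,
`X₁` transcendental.  With `s = X₂ / X₁` one has the Kummer form
`X₁^(q+1) · s (1 - s)^(q-1) = c`, `s` is transcendental (if `K` is algebraically closed) and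
`F = K(s)(X₁)`.
-/

noncomputable section

open IntermediateField AlgebraicCurve Polynomial

namespace Fermat.Agent.HP

/-- the data of the curve `H_P` inside a field `F / K`. -/
structure HPCurve (K F : Type*) [Field K] [Field F] [Algebra K F] (q : ℕ) where
  /-- first coordinate -/
  X1 : F
  /-- second coordinate -/
  X2 : F
  /-- the constant -/
  c : K
  c_ne : c ≠ 0
  q_two : 2 ≤ q
  rel : X1 * X2 * (X1 - X2) ^ (q - 1) = algebraMap K F c
  gen : IntermediateField.adjoin K {X1, X2} = ⊤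
  transc : Transcendental K X1

variable {K F : Type*} [Field K] [Field F] [Algebra K F] {q : ℕ}

namespace HPCurve

variable (H : HPCurve K F q)

/-- the parameter `s = X₂ / X₁`. -/
def s : F := H.X2 / H.X1

theorem algebraMap_c_ne : algebraMap K F H.c ≠ 0 := by
  rw [Ne, map_eq_zero_iff _ (algebraMap K F).injective]
  exact H.c_ne

theorem X1_ne : H.X1 ≠ 0 := by
  intro h
  have := H.rel
  rw [h] at this
  simp at this
  exact H.algebraMap_c_ne this.symm

theorem X2_ne : H.X2 ≠ 0 := by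
  intro h
  have := H.rel
  rw [h] at this
  simp at this
  exact H.algebraMap_c_ne this.symm

theorem X2_eq : H.X2 = H.s * H.X1 := by
  unfold s
  rw [div_mul_cancel₀ _ H.X1_ne]

theorem s_ne : H.s ≠ 0 := div_ne_zero H.X2_ne H.X1_ne

/-- Kummer form of the equation. -/
theorem rel_s : H.X1 ^ (q + 1) * (H.s * (1 - H.s) ^ (q - 1)) = algebraMap K F H.c := by
  have h := H.rel
  rw [H.X2_eq] at h
  rw [← h]
  have hq : q + 1 = (q - 1) + 2 := by have := H.q_two; omega
  have h1 : H.X1 - H.s * H.X1 = H.X1 * (1 - H.s) := by ring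
  rw [h1, mul_pow, hq]
  ring

theorem one_sub_s_ne : 1 - H.s ≠ 0 := by
  intro h
  have h2 := H.rel_s
  have hq := H.q_two
  rw [h, zero_pow (by omega), mul_zero, mul_zero] at h2
  exact H.algebraMap_c_ne h2.symm

theorem X1_pow_eq :
    H.X1 ^ (q + 1) = algebraMap K F H.c * (H.s * (1 - H.s) ^ (q - 1))⁻¹ := by
  rw [← H.rel_s, mul_assoc, mul_inv_cancel₀, mul_one]
  exact mul_ne_zero H.s_ne (pow_ne_zero _ H.one_sub_s_ne)

/-- `s` is transcendental. -/
theorem s_transcendental [IsAlgClosed K] : Transcendental K H.s := by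
  intro halg
  obtain ⟨a, ha⟩ := Fermat.Agent.S24Res.mem_range_of_isAlgebraic halg
  apply H.transc
  have h2 := H.X1_pow_eq
  rw [← ha] at h2
  have h3 : H.X1 ^ (q + 1) = algebraMap K F (H.c * (a * (1 - a) ^ (q - 1))⁻¹) := by
    rw [h2]
    simp only [map_mul, map_inv₀, map_pow, map_sub, map_one]
  refine ⟨X ^ (q + 1) - C (H.c * (a * (1 - a) ^ (q - 1))⁻¹), ?_, ?_⟩
  · intro h0
    have := congrArg (fun p => p.natDegree) h0
    simp only [natDegree_zero] at this
    rw [natDegree_sub_C, natDegree_X_pow] at this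
    omega
  · simp only [map_sub, map_pow, aeval_X, aeval_C]
    rw [h3, sub_self]

theorem s_mem : H.s ∈ K⟮H.s⟯ := mem_adjoin_simple_self K H.s

theorem s_mem_adjoin : H.s ∈ IntermediateField.adjoin K⟮H.s⟯ {H.X1} :=
  IntermediateField.algebraMap_mem _ (⟨H.s, H.s_mem⟩ : K⟮H.s⟯)

theorem X1_mem_adjoin : H.X1 ∈ IntermediateField.adjoin K⟮H.s⟯ {H.X1} :=
  IntermediateField.mem_adjoin_simple_self _ _

theorem X2_mem_adjoin : H.X2 ∈ IntermediateField.adjoin K⟮H.s⟯ {H.X1} := by
  rw [H.X2_eq]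
  exact mul_mem H.s_mem_adjoin H.X1_mem_adjoin

/-- `F = K(s)(X₁)`. -/
theorem adjoin_X1_eq_top : IntermediateField.adjoin K⟮H.s⟯ {H.X1} = ⊤ := by
  have h1 : (IntermediateField.adjoin K {H.X1, H.X2} : IntermediateField K F) ≤
      (IntermediateField.adjoin K⟮H.s⟯ {H.X1}).restrictScalars K := by
    apply IntermediateField.adjoin_le_iff.mpr
    intro x hx
    rcases hx with hx | hx
    · rw [hx]; exact H.X1_mem_adjoin
    · rw [Set.mem_singleton_iff] at hx
      rw [hx]; exact H.X2_mem_adjoin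
  rw [H.gen] at h1
  apply top_unique
  intro x _
  exact h1 (IntermediateField.mem_top (F := K) (E := F) (x := x))

/-- the element `u = c / (s (1 - s)^(q-1))` of `K(s)`. -/
def u : K⟮H.s⟯ :=
  algebraMap K K⟮H.s⟯ H.c *
    ((⟨H.s, H.s_mem⟩ : K⟮H.s⟯) * (1 - (⟨H.s, H.s_mem⟩ : K⟮H.s⟯)) ^ (q - 1))⁻¹

theorem coe_u : (H.u : F) = algebraMap K F H.c * (H.s * (1 - H.s) ^ (q - 1))⁻¹ := by
  unfold u
  push_cast
  rfl

theorem X1_pow_eq_u : H.X1 ^ (q + 1) = (H.u : F) := by
  rw [H.coe_u, H.X1_pow_eq]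

theorem u_ne : H.u ≠ 0 := by
  intro h
  have h2 := H.X1_pow_eq_u
  rw [h] at h2
  simp only [ZeroMemClass.coe_zero] at h2
  exact H.X1_ne (pow_eq_zero_iff (by omega) |>.mp h2)

/-- the Kummer polynomial `T^(q+1) - u` over `K(s)`. -/
def kummerPoly : Polynomial K⟮H.s⟯ := X ^ (q + 1) - C H.u

theorem kummerPoly_monic : H.kummerPoly.Monic := monic_X_pow_sub_C _ (by omega)

theorem kummerPoly_natDegree : H.kummerPoly.natDegree = q + 1 := by
  unfold kummerPoly
  rw [natDegree_sub_C, natDegree_X_pow]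

theorem aeval_kummerPoly : aeval H.X1 H.kummerPoly = 0 := by
  unfold kummerPoly
  simp only [map_sub, map_pow, aeval_X, aeval_C]
  rw [H.X1_pow_eq_u, sub_eq_zero]
  rfl

theorem isIntegral_X1 : IsIntegral K⟮H.s⟯ H.X1 :=
  ⟨H.kummerPoly, H.kummerPoly_monic, H.aeval_kummerPoly⟩

instance finiteDimensional : FiniteDimensional K⟮H.s⟯ F := by
  have h1 : FiniteDimensional K⟮H.s⟯ (IntermediateField.adjoin K⟮H.s⟯ {H.X1}) :=
    IntermediateField.adjoin.finiteDimensional H.isIntegral_X1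
  rw [H.adjoin_X1_eq_top] at h1
  exact (IntermediateField.topEquiv (F := K⟮H.s⟯) (E := F)).toLinearEquiv.finiteDimensional

theorem finrank_le : Module.finrank K⟮H.s⟯ F ≤ q + 1 := by
  have h1 : Module.finrank K⟮H.s⟯ (IntermediateField.adjoin K⟮H.s⟯ {H.X1}) =
      (minpoly K⟮H.s⟯ H.X1).natDegree := IntermediateField.adjoin.finrank H.isIntegral_X1
  have h2 : Module.finrank K⟮H.s⟯ (IntermediateField.adjoin K⟮H.s⟯ {H.X1}) =
      Module.finrank K⟮H.s⟯ F := by
    rw [H.adjoin_X1_eq_top]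
    exact IntermediateField.finrank_top'
  rw [← h2, h1, ← H.kummerPoly_natDegree]
  exact natDegree_le_of_dvd (minpoly.dvd _ _ H.aeval_kummerPoly) H.kummerPoly_monic.ne_zero

/-- the Kummer polynomial is separable when `q + 1` is invertible in `K`. -/
theorem kummerPoly_separable (hq : ((q + 1 : ℕ) : K) ≠ 0) : H.kummerPoly.Separable := by
  unfold kummerPoly
  refine separable_X_pow_sub_C H.u ?_ H.u_ne
  intro h
  apply hq
  have : algebraMap K K⟮H.s⟯ ((q + 1 : ℕ) : K) = 0 := by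
    rw [map_natCast]
    exact h
  exact (map_eq_zero_iff _ (algebraMap K K⟮H.s⟯).injective).mp this

theorem isSeparable (hq : ((q + 1 : ℕ) : K) ≠ 0) : Algebra.IsSeparable K⟮H.s⟯ F := by
  have h1 : IsSeparable K⟮H.s⟯ H.X1 :=
    (H.kummerPoly_separable hq).of_dvd (minpoly.dvd _ _ H.aeval_kummerPoly)
  have h2 : Algebra.IsSeparable K⟮H.s⟯ (IntermediateField.adjoin K⟮H.s⟯ {H.X1}) :=
    (IntermediateField.isSeparable_adjoin_simple_iff_isSeparable K⟮H.s⟯ F).mpr h1
  rw [H.adjoin_X1_eq_top] at h2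
  exact AlgEquiv.Algebra.isSeparable (IntermediateField.topEquiv (F := K⟮H.s⟯) (E := F))

include H in
/-- `F` satisfies the standing hypotheses of the Riemann-Roch library. -/
theorem isRRField [IsAlgClosed K] (hq : ((q + 1 : ℕ) : K) ≠ 0) :
    Fermat.Agent.RR.IsRRField K F := by
  haveI := H.isSeparable hq
  exact Fermat.Agent.RR.isRRField_of_separable H.s_transcendental

end HPCurve

end Fermat.Agent.HP
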