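import Mathlib
import Fermat.Agent.Lib.HP.Basic
import Fermat.Agent.Lib.RR.Hurwitz.Fibres

set_option autoImplicit false
set_option linter.unusedSectionVars false
set_option linter.unusedVariables false
set_option linter.style.haveILetI false

/-!
# The curve `H_P`: orders at the places over `s = 0, 1, ∞`

For every place `v` of `F = K(s)(X₁)`, `X₁^(q+1) s (1-s)^(q-1) = c`:
`(q+1) ord X₁ + ord s + (q-1) ord (1-s) = 0`.  Consequences:
* at a zero of `s`: `ord s = (q+1) (-ord X₁)`;
* at a pole of `s`: `ord s = (q+1) (ord X₁ + ord s)`;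
* at a zero of `1 - s`: `2 ord (1-s) = (q+1) (ord X₁ + ord (1-s))`.
Hence `[F : K(s)] = q + 1`, `s` has exactly one zero and one pole.
-/

noncomputable section

open IntermediateField AlgebraicCurve Polynomial

namespace Fermat.Agent.HP

open Fermat.Agent.RR Fermat.Agent.RRHur

variable {K F : Type*} [Field K] [Field F] [Algebra K F] {q : ℕ}

theorem hp_ord_neg (v : Place K F) (f : F) : v.ord (-f) = v.ord f := by
  unfold Place.ord
  rw [Valuation.map_neg]

theorem hp_ord_pow (v : Place K F) (f : F) (n : ℕ) : v.ord (f ^ n) = (n : ℤ) * v.ord f := by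
  rw [← zpow_natCast, v.ord_zpow]

theorem hp_ord_sub_comm (v : Place K F) (f g : F) : v.ord (f - g) = v.ord (g - f) := by
  rw [← hp_ord_neg, neg_sub]

namespace HPCurve

variable (H : HPCurve K F q)

theorem one_sub_s_eq : 1 - H.s = -(H.s - algebraMap K F 1) := by
  rw [map_one]; ring

theorem ord_one_sub_s (v : Place K F) : v.ord (1 - H.s) = v.ord (H.s - algebraMap K F 1) := by
  rw [H.one_sub_s_eq, hp_ord_neg]

theorem s_sub_zero : H.s - algebraMap K F 0 = H.s := by
  rw [map_zero, sub_zero]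

/-- the fundamental relation between the orders. -/
theorem ord_rel (v : Place K F) :
    ((q : ℤ) + 1) * v.ord H.X1 + v.ord H.s + ((q : ℤ) - 1) * v.ord (1 - H.s) = 0 := by
  have h := congrArg v.ord H.rel_s
  rw [Fermat.Agent.S24Res.ord_algebraMap,
    v.ord_mul (pow_ne_zero _ H.X1_ne) (mul_ne_zero H.s_ne (pow_ne_zero _ H.one_sub_s_ne)),
    v.ord_mul H.s_ne (pow_ne_zero _ H.one_sub_s_ne), hp_ord_pow, hp_ord_pow] at h
  have hq := H.q_two
  rw [Nat.cast_sub (by omega)] at h
  push_cast at h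
  linarith

/-- at a zero of `s`. -/
theorem ord_s_of_pos (v : Place K F) (hv : 0 < v.ord H.s) :
    v.ord H.s = ((q : ℤ) + 1) * (-v.ord H.X1) := by
  have h1 : v.ord (1 - H.s) = 0 := by
    rw [H.ord_one_sub_s]
    refine ord_sub_const_eq_zero v (c := 0) (c' := 1) zero_ne_one ?_
    rw [H.s_sub_zero]; exact hv
  have h2 := H.ord_rel v
  rw [h1] at h2
  linarith

/-- at a pole of `s`. -/
theorem ord_s_of_neg (v : Place K F) (hv : v.ord H.s < 0) :
    v.ord H.s = ((q : ℤ) + 1) * (v.ord H.X1 + v.ord H.s) := by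
  have h1 : v.ord (1 - H.s) = v.ord H.s := by
    rw [H.ord_one_sub_s]
    exact ord_sub_const_of_pole v 1 hv
  have h2 := H.ord_rel v
  rw [h1] at h2
  linarith

/-- at a zero of `s - c₀`, `c₀ ≠ 0`: `s` is a unit. -/
theorem ord_s_of_zero_ne (v : Place K F) {c₀ : K} (hc : c₀ ≠ 0)
    (hv : 0 < v.ord (H.s - algebraMap K F c₀)) : v.ord H.s = 0 := by
  have := ord_sub_const_eq_zero v (c := c₀) (c' := 0) hc hv
  rwa [H.s_sub_zero] at this

/-- at a zero of `s - 1`. -/
theorem ord_at_one (v : Place K F) (hv : 0 < v.ord (H.s - algebraMap K F 1)) :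
    2 * v.ord (H.s - algebraMap K F 1) =
      ((q : ℤ) + 1) * (v.ord H.X1 + v.ord (H.s - algebraMap K F 1)) := by
  have h1 : v.ord H.s = 0 := H.ord_s_of_zero_ne v one_ne_zero hv
  have h2 := H.ord_rel v
  rw [h1, H.ord_one_sub_s] at h2
  linarith

/-- at a zero of `s - c₀`, `c₀ ≠ 0, 1`: `X₁` is a unit. -/
theorem ord_X1_of_zero_ne (v : Place K F) {c₀ : K} (hc0 : c₀ ≠ 0) (hc1 : c₀ ≠ 1)
    (hv : 0 < v.ord (H.s - algebraMap K F c₀)) : v.ord H.X1 = 0 := by
  have h1 : v.ord H.s = 0 := H.ord_s_of_zero_ne v hc0 hv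
  have h2 : v.ord (1 - H.s) = 0 := by
    rw [H.ord_one_sub_s]
    exact ord_sub_const_eq_zero v (c := c₀) (c' := 1) hc1 hv
  have h3 := H.ord_rel v
  rw [h1, h2] at h3
  have h4 : ((q : ℤ) + 1) * v.ord H.X1 = 0 := by linarith
  rcases mul_eq_zero.mp h4 with h5 | h5
  · exfalso; have : (0 : ℤ) ≤ q := Int.natCast_nonneg q; omega
  · exact h5

section Count

variable [IsAlgClosed K] (hq1 : ((q + 1 : ℕ) : K) ≠ 0)

include hq1

/-- the degree is `q + 1` and `s` has exactly one zero. -/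
theorem finrank_and_zero :
    Module.finrank K⟮H.s⟯ F = q + 1 ∧
      Nat.card {v : Place K F // 0 < v.ord (H.s - algebraMap K F 0)} = 1 := by
  haveI := H.isSeparable hq1
  obtain ⟨S, hS, hsum⟩ := exists_finset_zeros_of_separable H.s_transcendental (0 : K)
  have hcard : Nat.card {v : Place K F // 0 < v.ord (H.s - algebraMap K F 0)} = S.card := by
    rw [← Nat.card_eq_finsetCard S]
    exact Nat.card_congr (Equiv.subtypeEquivRight fun v => (hS v).symm)
  have hpos : 0 < Module.finrank K⟮H.s⟯ F := Module.finrank_pos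
  have hle := H.finrank_le
  have hge : ∀ v ∈ S, ((q : ℤ) + 1) ≤ v.ord (H.s - algebraMap K F 0) := by
    intro v hv
    have h1 := (hS v).mp hv
    rw [H.s_sub_zero] at h1 ⊢
    have h2 := H.ord_s_of_pos v h1
    have h3 : 0 < -v.ord H.X1 := by
      by_contra hcon
      push Not at hcon
      have : ((q : ℤ) + 1) * (-v.ord H.X1) ≤ 0 :=
        mul_nonpos_of_nonneg_of_nonpos (by positivity) hcon
      omega
    rw [h2]
    have : ((q : ℤ) + 1) * 1 ≤ ((q : ℤ) + 1) * (-v.ord H.X1) :=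
      mul_le_mul_of_nonneg_left (by omega) (by positivity)
    linarith
  have hsum2 : (S.card : ℤ) * ((q : ℤ) + 1) ≤ (Module.finrank K⟮H.s⟯ F : ℤ) := by
    rw [← hsum]
    have := Finset.card_nsmul_le_sum S (fun v => v.ord (H.s - algebraMap K F 0)) ((q : ℤ) + 1) hge
    simpa using this
  have hS1 : 1 ≤ S.card := by
    by_contra hcon
    have h0 : S.card = 0 := by omega
    rw [Finset.card_eq_zero] at h0
    rw [h0, Finset.sum_empty] at hsum
    have : (Module.finrank K⟮H.s⟯ F : ℤ) = 0 := hsum.symm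
    omega
  have hle' : (Module.finrank K⟮H.s⟯ F : ℤ) ≤ (q : ℤ) + 1 := by exact_mod_cast hle
  have hS2 : (S.card : ℤ) * ((q : ℤ) + 1) ≤ (q : ℤ) + 1 := le_trans hsum2 hle'
  have hq0 : (0 : ℤ) ≤ q := Int.natCast_nonneg q
  have hS3 : S.card ≤ 1 := by
    by_contra hcon
    have h2 : (2 : ℤ) ≤ S.card := by exact_mod_cast (by omega : 2 ≤ S.card)
    nlinarith
  have hS4 : S.card = 1 := le_antisymm hS3 hS1
  refine ⟨?_, by rw [hcard, hS4]⟩
  rw [hS4] at hsum2
  have : ((q : ℤ) + 1) ≤ (Module.finrank K⟮H.s⟯ F : ℤ) := by simpa using hsum2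
  have h3 : q + 1 ≤ Module.finrank K⟮H.s⟯ F := by exact_mod_cast this
  omega

theorem finrank_eq : Module.finrank K⟮H.s⟯ F = q + 1 := (H.finrank_and_zero hq1).1

theorem card_zero_fibre :
    Nat.card {v : Place K F // 0 < v.ord (H.s - algebraMap K F 0)} = 1 :=
  (H.finrank_and_zero hq1).2

/-- `s` has exactly one pole. -/
theorem card_pole_fibre : Nat.card {v : Place K F // v.ord H.s < 0} = 1 := by
  haveI := H.isSeparable hq1
  obtain ⟨S, hS, hsum⟩ := exists_finset_poles_of_separable H.s_transcendental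
  rw [H.finrank_eq hq1] at hsum
  have hcard : Nat.card {v : Place K F // v.ord H.s < 0} = S.card := by
    rw [← Nat.card_eq_finsetCard S]
    exact Nat.card_congr (Equiv.subtypeEquivRight fun v => (hS v).symm)
  have hge : ∀ v ∈ S, ((q : ℤ) + 1) ≤ -v.ord H.s := by
    intro v hv
    have h1 := (hS v).mp hv
    have h2 := H.ord_s_of_neg v h1
    have h3 : v.ord H.X1 + v.ord H.s < 0 := by
      by_contra hcon
      push Not at hcon
      have : 0 ≤ ((q : ℤ) + 1) * (v.ord H.X1 + v.ord H.s) :=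
        mul_nonneg (by positivity) hcon
      omega
    have : ((q : ℤ) + 1) * (v.ord H.X1 + v.ord H.s) ≤ ((q : ℤ) + 1) * (-1) :=
      mul_le_mul_of_nonneg_left (by omega) (by positivity)
    linarith
  have hsum2 : (S.card : ℤ) * ((q : ℤ) + 1) ≤ ((q + 1 : ℕ) : ℤ) := by
    rw [← hsum]
    have := Finset.card_nsmul_le_sum S (fun v => -v.ord H.s) ((q : ℤ) + 1) hge
    simpa using this
  have hS1 : 1 ≤ S.card := by
    by_contra hcon
    have h0 : S.card = 0 := by omega
    rw [Finset.card_eq_zero] at h0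
    rw [h0, Finset.sum_empty] at hsum
    have : ((q + 1 : ℕ) : ℤ) = 0 := hsum.symm
    omega
  have hq0 : (0 : ℤ) ≤ q := Int.natCast_nonneg q
  have hS3 : S.card ≤ 1 := by
    by_contra hcon
    have h2 : (2 : ℤ) ≤ S.card := by exact_mod_cast (by omega : 2 ≤ S.card)
    push_cast at hsum2
    nlinarith
  rw [hcard]
  omega

end Count

end HPCurve

end Fermat.Agent.HP
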