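import Mathlib
import Fermat.Agent.Lib.HP.Fibres

set_option autoImplicit false
set_option linter.unusedSectionVars false
set_option linter.unusedVariables false
set_option linter.style.haveILetI false

/-!
# The curve `H_P`: the fibre over `s = 1`

* `q` even (`q = 2`): one place over `s = 1`, of ramification index `q + 1`;
* `q` odd (and `2 ≠ 0` in `K`): two places, of ramification index `(q + 1) / 2`, separated by the
  function `Y = X₁^m (1 - s)^(m - 1)`, `m = (q + 1) / 2`, `Y² = c / s`.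
-/

noncomputable section

open IntermediateField AlgebraicCurve Polynomial

namespace Fermat.Agent.HP

open Fermat.Agent.RR Fermat.Agent.RRHur

variable {K F : Type*} [Field K] [Field F] [Algebra K F] {q : ℕ}

/-- a transcendental element has a zero. -/
theorem hp_exists_zero (h : IsRRField K F) {x : F} (hx : Transcendental K x) :
    ∃ v : Place K F, 0 < v.ord x := by
  have hx' : Transcendental K x⁻¹ := fun halg => hx (by simpa using halg.inv)
  obtain ⟨v, hv⟩ := exists_pole h hx'
  refine ⟨v, ?_⟩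
  rw [one_lt_adicValuation_iff, Place.ord_inv] at hv
  omega

/-- a transcendental element takes every value. -/
theorem hp_exists_zero_sub (h : IsRRField K F) {x : F} (hx : Transcendental K x) (a : K) :
    ∃ v : Place K F, 0 < v.ord (x - algebraMap K F a) := by
  apply hp_exists_zero h
  intro halg
  apply hx
  have h2 : IsAlgebraic K (x - algebraMap K F a + algebraMap K F a) :=
    halg.add (isAlgebraic_algebraMap a)
  simpa using h2

namespace HPCurve

variable (H : HPCurve K F q)

/-- every place of a fibre has order at most the degree. -/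
theorem ord_le_finrank [IsAlgClosed K] (hq1 : ((q + 1 : ℕ) : K) ≠ 0) (c₀ : K) (v : Place K F)
    (hv : 0 < v.ord (H.s - algebraMap K F c₀)) :
    v.ord (H.s - algebraMap K F c₀) ≤ (q : ℤ) + 1 := by
  haveI := H.isSeparable hq1
  obtain ⟨S, hS, hsum⟩ := exists_finset_zeros_of_separable H.s_transcendental c₀
  rw [H.finrank_eq hq1] at hsum
  have hvS : v ∈ S := (hS v).mpr hv
  have := Finset.single_le_sum (f := fun w => w.ord (H.s - algebraMap K F c₀))
    (fun w hw => ((hS w).mp hw).le) hvS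
  rw [hsum] at this
  push_cast at this
  exact this

/-- the fibre over `c₀` has at most `q + 1` places, with equality iff unramified. -/
theorem card_fibre_le [IsAlgClosed K] (hq1 : ((q + 1 : ℕ) : K) ≠ 0) (c₀ : K) :
    Nat.card {v : Place K F // 0 < v.ord (H.s - algebraMap K F c₀)} ≤ q + 1 := by
  haveI := H.isSeparable hq1
  obtain ⟨S, hS, hsum⟩ := exists_finset_zeros_of_separable H.s_transcendental c₀
  rw [H.finrank_eq hq1] at hsum
  have hcard : Nat.card {v : Place K F // 0 < v.ord (H.s - algebraMap K F c₀)} = S.card := by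
    rw [← Nat.card_eq_finsetCard S]
    exact Nat.card_congr (Equiv.subtypeEquivRight fun v => (hS v).symm)
  rw [hcard]
  have := Finset.card_nsmul_le_sum S (fun v => v.ord (H.s - algebraMap K F c₀)) 1
    (fun v hv => (hS v).mp hv)
  rw [hsum] at this
  simp only [nsmul_eq_mul, mul_one] at this
  exact_mod_cast this

/-- `q` even: the ramification index over `s = 1` is `q + 1`. -/
theorem ord_at_one_even [IsAlgClosed K] (hq1 : ((q + 1 : ℕ) : K) ≠ 0) (hq : Even q)
    (v : Place K F) (hv : 0 < v.ord (H.s - algebraMap K F 1)) :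
    v.ord (H.s - algebraMap K F 1) = (q : ℤ) + 1 := by
  have h1 := H.ord_at_one v hv
  have h2 := H.ord_le_finrank hq1 1 v hv
  obtain ⟨r, hr⟩ := hq
  set e := v.ord (H.s - algebraMap K F 1) with he
  set a := v.ord H.X1 with ha
  -- 2 e = (2 r + 1) (a + e), so (a + e) is even: a + e = 2 t, e = (2 r + 1) t
  have hr' : (q : ℤ) = 2 * r := by rw [hr]; push_cast; ring
  rw [hr'] at h1 h2 ⊢
  have h3 : (2 : ℤ) ∣ (a + e) := by
    have : (2 : ℤ) ∣ (2 * (r : ℤ) + 1) * (a + e) := ⟨e, h1.symm⟩
    have hcop : IsCoprime (2 : ℤ) (2 * (r : ℤ) + 1) := ⟨-(r : ℤ), 1, by ring⟩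
    exact hcop.dvd_of_dvd_mul_left this
  obtain ⟨t, ht⟩ := h3
  rw [ht] at h1
  have h4 : e = (2 * (r : ℤ) + 1) * t := by linarith
  have hr0 : (0 : ℤ) ≤ r := Int.natCast_nonneg r
  have ht1 : 1 ≤ t := by
    by_contra hcon
    push Not at hcon
    have : (2 * (r : ℤ) + 1) * t ≤ 0 := mul_nonpos_of_nonneg_of_nonpos (by positivity) (by omega)
    omega
  have ht2 : t ≤ 1 := by
    by_contra hcon
    push Not at hcon
    have : (2 * (r : ℤ) + 1) * 2 ≤ (2 * (r : ℤ) + 1) * t :=
      mul_le_mul_of_nonneg_left (by omega) (by positivity)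
    omega
  have ht3 : t = 1 := le_antisymm ht2 ht1
  rw [h4, ht3, mul_one]

/-- `q` even: exactly one place over `s = 1`. -/
theorem card_one_fibre_even [IsAlgClosed K] (hq1 : ((q + 1 : ℕ) : K) ≠ 0) (hq : Even q) :
    Nat.card {v : Place K F // 0 < v.ord (H.s - algebraMap K F 1)} = 1 := by
  haveI := H.isSeparable hq1
  obtain ⟨S, hS, hsum⟩ := exists_finset_zeros_of_separable H.s_transcendental (1 : K)
  rw [H.finrank_eq hq1] at hsum
  have hcard : Nat.card {v : Place K F // 0 < v.ord (H.s - algebraMap K F 1)} = S.card := by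
    rw [← Nat.card_eq_finsetCard S]
    exact Nat.card_congr (Equiv.subtypeEquivRight fun v => (hS v).symm)
  rw [hcard]
  have h1 : ∑ v ∈ S, v.ord (H.s - algebraMap K F 1) = ∑ v ∈ S, ((q : ℤ) + 1) :=
    Finset.sum_congr rfl fun v hv => H.ord_at_one_even hq1 hq v ((hS v).mp hv)
  rw [h1, Finset.sum_const, nsmul_eq_mul] at hsum
  push_cast at hsum
  have hq0 : (0 : ℤ) ≤ q := Int.natCast_nonneg q
  have h2 : (S.card : ℤ) = 1 := by
    have h3 : ((S.card : ℤ) - 1) * ((q : ℤ) + 1) = 0 := by linarith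
    rcases mul_eq_zero.mp h3 with h4 | h4
    · linarith
    · omega
  exact_mod_cast h2

section Odd

/-- `m = (q + 1) / 2`. -/
def m (_H : HPCurve K F q) : ℕ := (q + 1) / 2

theorem two_mul_m (hq : Odd q) : 2 * H.m = q + 1 := by
  obtain ⟨r, hr⟩ := hq
  unfold m
  omega

theorem m_pos (hq : Odd q) : 1 ≤ H.m := by
  have := H.two_mul_m hq
  omega

/-- the function `Y = X₁^m (1 - s)^(m - 1)`. -/
def Y : F := H.X1 ^ H.m * (1 - H.s) ^ (H.m - 1)

theorem Y_sq (hq : Odd q) : H.Y ^ 2 * H.s = algebraMap K F H.c := by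
  have h1 := H.two_mul_m hq
  have h2 := H.m_pos hq
  have hq2 := H.q_two
  rw [← H.rel_s]
  unfold Y
  have e1 : q + 1 = H.m * 2 := by omega
  have e2 : q - 1 = (H.m - 1) * 2 := by omega
  rw [e1, e2, pow_mul, pow_mul]
  ring

theorem Y_ne (hq : Odd q) : H.Y ≠ 0 := by
  intro h
  have := H.Y_sq hq
  rw [h] at this
  simp at this
  exact H.algebraMap_c_ne this.symm

theorem Y_transcendental [IsAlgClosed K] (hq : Odd q) : Transcendental K H.Y := by
  intro halg
  apply H.s_transcendental
  have h1 : H.s = algebraMap K F H.c * (H.Y ^ 2)⁻¹ := by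
    rw [← H.Y_sq hq]
    field_simp [H.Y_ne hq]
  rw [h1]
  exact (isAlgebraic_algebraMap H.c).mul (halg.pow 2).inv

/-- `q` odd: the ramification index over `s = 1` is `m`-divisible. -/
theorem ord_at_one_odd (hq : Odd q) (v : Place K F)
    (hv : 0 < v.ord (H.s - algebraMap K F 1)) :
    v.ord (H.s - algebraMap K F 1) =
      (H.m : ℤ) * (v.ord H.X1 + v.ord (H.s - algebraMap K F 1)) := by
  have h1 := H.ord_at_one v hv
  have h2 : ((q : ℤ) + 1) = 2 * (H.m : ℤ) := by
    have := H.two_mul_m hq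
    exact_mod_cast this.symm
  rw [h2] at h1
  linarith

theorem m_le_ord_at_one (hq : Odd q) (v : Place K F)
    (hv : 0 < v.ord (H.s - algebraMap K F 1)) :
    (H.m : ℤ) ≤ v.ord (H.s - algebraMap K F 1) := by
  have h1 := H.ord_at_one_odd hq v hv
  have hm : (0 : ℤ) ≤ (H.m : ℤ) := Int.natCast_nonneg _
  have h3 : 1 ≤ v.ord H.X1 + v.ord (H.s - algebraMap K F 1) := by
    by_contra hcon
    push Not at hcon
    have : (H.m : ℤ) * (v.ord H.X1 + v.ord (H.s - algebraMap K F 1)) ≤ 0 :=
      mul_nonpos_of_nonneg_of_nonpos hm (by omega)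
    omega
  calc (H.m : ℤ) = (H.m : ℤ) * 1 := (mul_one _).symm
    _ ≤ (H.m : ℤ) * (v.ord H.X1 + v.ord (H.s - algebraMap K F 1)) :=
        mul_le_mul_of_nonneg_left h3 hm
    _ = _ := h1.symm

/-- a zero of `Y - γ`, `γ² = c`, lies over `s = 1`. -/
theorem pos_ord_of_Y (hq : Odd q) {γ : K} (hγ : γ ^ 2 = H.c) (v : Place K F)
    (hv : 0 < v.ord (H.Y - algebraMap K F γ)) :
    0 < v.ord (H.s - algebraMap K F 1) := by
  have hγ0 : γ ≠ 0 := by
    intro h
    rw [h] at hγ
    exact H.c_ne (by rw [← hγ]; ring)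
  -- Y is a unit at v
  have hY0 : v.ord H.Y = 0 := by
    have := ord_sub_const_eq_zero v (c := γ) (c' := 0) hγ0 hv
    rwa [map_zero, sub_zero] at this
  -- ord s = 0
  have hs0 : v.ord H.s = 0 := by
    have h1 := congrArg v.ord (H.Y_sq hq)
    rw [Fermat.Agent.S24Res.ord_algebraMap, v.ord_mul (pow_ne_zero _ (H.Y_ne hq)) H.s_ne,
      hp_ord_pow, hY0] at h1
    simpa using h1
  -- Y^2 - c = c (1 - s) / s  has positive order
  have hfac : (H.Y - algebraMap K F γ) * (H.Y + algebraMap K F γ) * H.s =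
      algebraMap K F H.c * (1 - H.s) := by
    have h1 := H.Y_sq hq
    have h2 : algebraMap K F γ ^ 2 = algebraMap K F H.c := by rw [← map_pow, hγ]
    have : (H.Y - algebraMap K F γ) * (H.Y + algebraMap K F γ) * H.s =
        H.Y ^ 2 * H.s - algebraMap K F γ ^ 2 * H.s := by ring
    rw [this, h1, h2]
    ring
  have hYm : H.Y - algebraMap K F γ ≠ 0 := by
    intro h
    rw [h] at hv
    simp at hv
  by_cases hYp : H.Y + algebraMap K F γ = 0
  · -- then c (1 - s) = 0: impossible
    rw [hYp, mul_zero, zero_mul] at hfac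
    exact absurd hfac.symm (mul_ne_zero H.algebraMap_c_ne H.one_sub_s_ne)
  have hYp0 : 0 ≤ v.ord (H.Y + algebraMap K F γ) := by
    have h1 : H.Y + algebraMap K F γ = H.Y - algebraMap K F (-γ) := by
      rw [map_neg, sub_neg_eq_add]
    rw [h1]
    by_cases hγγ : γ = -γ
    · rw [← hγγ]; exact hv.le
    · exact (ord_sub_const_eq_zero v (c := γ) (c' := -γ) hγγ hv).ge
  have h3 := congrArg v.ord hfac
  rw [v.ord_mul (mul_ne_zero hYm hYp) H.s_ne, v.ord_mul hYm hYp, hs0,
    v.ord_mul H.algebraMap_c_ne H.one_sub_s_ne, Fermat.Agent.S24Res.ord_algebraMap,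
    H.ord_one_sub_s] at h3
  omega

/-- `q` odd, `2 ≠ 0`: exactly two places over `s = 1`. -/
theorem card_one_fibre_odd [IsAlgClosed K] (hq1 : ((q + 1 : ℕ) : K) ≠ 0) (hq : Odd q)
    (h2 : (2 : K) ≠ 0) :
    Nat.card {v : Place K F // 0 < v.ord (H.s - algebraMap K F 1)} = 2 := by
  classical
  haveI := H.isSeparable hq1
  have hRR := H.isRRField hq1
  obtain ⟨S, hS, hsum⟩ := exists_finset_zeros_of_separable H.s_transcendental (1 : K)
  rw [H.finrank_eq hq1] at hsum
  have hcard : Nat.card {v : Place K F // 0 < v.ord (H.s - algebraMap K F 1)} = S.card := by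
    rw [← Nat.card_eq_finsetCard S]
    exact Nat.card_congr (Equiv.subtypeEquivRight fun v => (hS v).symm)
  rw [hcard]
  -- upper bound
  have hm := H.two_mul_m hq
  have hmpos := H.m_pos hq
  have hle : S.card ≤ 2 := by
    have h1 := Finset.card_nsmul_le_sum S (fun v => v.ord (H.s - algebraMap K F 1)) (H.m : ℤ)
      (fun v hv => H.m_le_ord_at_one hq v ((hS v).mp hv))
    rw [hsum, nsmul_eq_mul] at h1
    have h3 : (S.card : ℤ) * (H.m : ℤ) ≤ 2 * (H.m : ℤ) := by
      have : ((q + 1 : ℕ) : ℤ) = 2 * (H.m : ℤ) := by exact_mod_cast hm.symm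
      linarith
    have h4 : (S.card : ℤ) ≤ 2 := le_of_mul_le_mul_right h3 (by exact_mod_cast hmpos)
    exact_mod_cast h4
  -- two distinct places
  obtain ⟨γ, hγ⟩ := IsAlgClosed.exists_pow_nat_eq H.c (n := 2) (by norm_num)
  have hγ0 : γ ≠ 0 := by
    intro h
    rw [h] at hγ
    exact H.c_ne (by rw [← hγ]; ring)
  have hγ' : (-γ) ^ 2 = H.c := by rw [neg_sq]; exact hγ
  have hγγ : γ ≠ -γ := by
    intro h
    have : (2 : K) * γ = 0 := by linear_combination h
    rcases mul_eq_zero.mp this with h3 | h3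
    · exact h2 h3
    · exact hγ0 h3
  obtain ⟨v₁, hv₁⟩ := hp_exists_zero_sub hRR (H.Y_transcendental hq) γ
  obtain ⟨v₂, hv₂⟩ := hp_exists_zero_sub hRR (H.Y_transcendental hq) (-γ)
  have hne : v₁ ≠ v₂ := by
    intro h
    rw [← h] at hv₂
    have := ord_sub_const_eq_zero v₁ (c := γ) (c' := -γ) hγγ hv₁
    omega
  have hv₁S : v₁ ∈ S := (hS v₁).mpr (H.pos_ord_of_Y hq hγ v₁ hv₁)
  have hv₂S : v₂ ∈ S := (hS v₂).mpr (H.pos_ord_of_Y hq hγ' v₂ hv₂)
  have hge : 2 ≤ S.card := by
    have hsub : ({v₁, v₂} : Finset (Place K F)) ⊆ S := by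
      intro w hw
      rw [Finset.mem_insert, Finset.mem_singleton] at hw
      rcases hw with rfl | rfl
      · exact hv₁S
      · exact hv₂S
    have := Finset.card_le_card hsub
    rwa [Finset.card_pair hne] at this
  omega

end Odd

end HPCurve

end Fermat.Agent.HP
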