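import Mathlib
import Fermat.Prelude.Def_AlgebraicCurve_Correspondence
import Fermat.Agent.Lib.HP.One

set_option autoImplicit false
set_option linter.unusedSectionVars false
set_option linter.unusedVariables false
set_option linter.style.haveILetI false

/-!
# The curve `H_P`: the automorphisms `σ_η`, `η^(q+1) = 1`, and the unramified fibres

`σ_η : F →ₐ[K(s)] F`, `X₁ ↦ η X₁` (hence `X₂ ↦ η X₂`, `s ↦ s`).  Transporting one place over
`s = c₀` (`c₀ ≠ 0, 1`) by the `σ_η` gives `q + 1` distinct places over `c₀`: the fibre is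
unramified.
-/

noncomputable section

open IntermediateField AlgebraicCurve Polynomial

namespace Fermat.Agent.HP

open Fermat.Agent.RR Fermat.Agent.RRHur

variable {K F : Type*} [Field K] [Field F] [Algebra K F] {q : ℕ}

namespace HPCurve

variable (H : HPCurve K F q)

section Aut

variable [IsAlgClosed K] (hq1 : ((q + 1 : ℕ) : K) ≠ 0)

include hq1 in
theorem natDegree_minpoly_X1 : (minpoly K⟮H.s⟯ H.X1).natDegree = q + 1 := by
  rw [← IntermediateField.adjoin.finrank H.isIntegral_X1, ← H.finrank_eq hq1]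
  have h1 : Module.finrank K⟮H.s⟯ (IntermediateField.adjoin K⟮H.s⟯ {H.X1}) =
      Module.finrank K⟮H.s⟯ (⊤ : IntermediateField K⟮H.s⟯ F) := by
    rw [H.adjoin_X1_eq_top]
  rw [h1]
  exact IntermediateField.finrank_top'

include hq1 in
/-- the minimal polynomial of `X₁` over `K(s)` is the Kummer polynomial. -/
theorem minpoly_X1 : minpoly K⟮H.s⟯ H.X1 = H.kummerPoly :=
  (eq_of_monic_of_dvd_of_natDegree_le (minpoly.monic H.isIntegral_X1) H.kummerPoly_monic
    (minpoly.dvd _ _ H.aeval_kummerPoly)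
    (by rw [H.natDegree_minpoly_X1 hq1, H.kummerPoly_natDegree])).symm

/-- `K(s)(X₁) ≃ F`. -/
def adjEquiv : (IntermediateField.adjoin K⟮H.s⟯ {H.X1}) ≃ₐ[K⟮H.s⟯] F :=
  (IntermediateField.equivOfEq H.adjoin_X1_eq_top).trans IntermediateField.topEquiv

theorem adjEquiv_apply (x : IntermediateField.adjoin K⟮H.s⟯ {H.X1}) :
    H.adjEquiv x = (x : F) := rfl

theorem adjEquiv_symm_X1 :
    H.adjEquiv.symm H.X1 = IntermediateField.AdjoinSimple.gen K⟮H.s⟯ H.X1 := by
  apply H.adjEquiv.injective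
  rw [AlgEquiv.apply_symm_apply, H.adjEquiv_apply]
  rfl

include hq1 in
theorem aeval_eta_X1 (η : K) (hη : η ^ (q + 1) = 1) :
    aeval (algebraMap K F η * H.X1)
      (minpoly K⟮H.s⟯ (IntermediateField.adjoin.powerBasis H.isIntegral_X1).gen) = 0 := by
  rw [IntermediateField.adjoin.powerBasis_gen, IntermediateField.minpoly_gen, H.minpoly_X1 hq1]
  unfold kummerPoly
  simp only [map_sub, map_pow, aeval_X, aeval_C]
  rw [mul_pow, ← map_pow, hη, map_one, one_mul, H.X1_pow_eq_u, sub_eq_zero]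
  rfl

/-- the automorphism `σ_η` (as an algebra homomorphism over `K(s)`). -/
def autHom (η : K) (hη : η ^ (q + 1) = 1) : F →ₐ[K⟮H.s⟯] F :=
  ((IntermediateField.adjoin.powerBasis H.isIntegral_X1).lift (algebraMap K F η * H.X1)
    (H.aeval_eta_X1 hq1 η hη)).comp H.adjEquiv.symm.toAlgHom

theorem autHom_X1 (η : K) (hη : η ^ (q + 1) = 1) :
    H.autHom hq1 η hη H.X1 = algebraMap K F η * H.X1 := by
  unfold autHom
  rw [AlgHom.comp_apply]
  have h1 : H.adjEquiv.symm.toAlgHom H.X1 =
      (IntermediateField.adjoin.powerBasis H.isIntegral_X1).gen := by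
    rw [IntermediateField.adjoin.powerBasis_gen]
    exact H.adjEquiv_symm_X1
  rw [h1, PowerBasis.lift_gen]

theorem autHom_s (η : K) (hη : η ^ (q + 1) = 1) : H.autHom hq1 η hη H.s = H.s := by
  exact (H.autHom hq1 η hη).commutes ⟨H.s, H.s_mem⟩

/-- `σ_η` as a `K`-algebra homomorphism. -/
def autK (η : K) (hη : η ^ (q + 1) = 1) : F →ₐ[K] F :=
  (H.autHom hq1 η hη).restrictScalars K

theorem autK_apply (η : K) (hη : η ^ (q + 1) = 1) (x : F) :
    H.autK hq1 η hη x = H.autHom hq1 η hη x := rfl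

theorem autK_X1 (η : K) (hη : η ^ (q + 1) = 1) :
    H.autK hq1 η hη H.X1 = algebraMap K F η * H.X1 := H.autHom_X1 hq1 η hη

theorem autK_s (η : K) (hη : η ^ (q + 1) = 1) : H.autK hq1 η hη H.s = H.s :=
  H.autHom_s hq1 η hη

theorem autK_X2 (η : K) (hη : η ^ (q + 1) = 1) :
    H.autK hq1 η hη H.X2 = algebraMap K F η * H.X2 := by
  rw [H.X2_eq, map_mul, H.autK_s, H.autK_X1]
  ring

theorem autHom_bijective (η : K) (hη : η ^ (q + 1) = 1) :
    Function.Bijective (H.autHom hq1 η hη) := by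
  have hinj : Function.Injective (H.autHom hq1 η hη) := (H.autHom hq1 η hη).toRingHom.injective
  refine ⟨hinj, ?_⟩
  have : Function.Injective (H.autHom hq1 η hη).toLinearMap := hinj
  exact (LinearMap.injective_iff_surjective).mp this

theorem autK_isIntegral (η : K) (hη : η ^ (q + 1) = 1) :
    (H.autK hq1 η hη).toRingHom.IsIntegral :=
  RingHom.isIntegral_of_surjective _ (H.autHom_bijective hq1 η hη).2

/-- `σ_η` as an algebra automorphism. -/
def autEquiv (η : K) (hη : η ^ (q + 1) = 1) : F ≃ₐ[K] F :=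
  AlgEquiv.ofBijective (H.autK hq1 η hη) (H.autHom_bijective hq1 η hη)

theorem autEquiv_apply (η : K) (hη : η ^ (q + 1) = 1) (x : F) :
    H.autEquiv hq1 η hη x = H.autK hq1 η hη x := rfl

end Aut

section Unram

variable [IsAlgClosed K] (hq1 : ((q + 1 : ℕ) : K) ≠ 0)

/-- the translate of a place by `σ_η`. -/
def movePlace (η : K) (hη : η ^ (q + 1) = 1) (v : Place K F) : Place K F :=
  v.restrictAlong (H.autK hq1 η hη) (H.autK_isIntegral hq1 η hη)

theorem pos_ord_movePlace (η : K) (hη : η ^ (q + 1) = 1) (v : Place K F) {f : F}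
    (hf : 0 < v.ord (H.autK hq1 η hη f)) : 0 < (H.movePlace hq1 η hη v).ord f := by
  have h1 := Place.ord_restrictAlong (H.autK hq1 η hη) (H.autK_isIntegral hq1 η hη) v f
  rw [h1] at hf
  by_contra hcon
  push Not at hcon
  have : ((Place.ramificationIndexAlong (H.autK hq1 η hη) v : ℕ) : ℤ) *
      (v.restrictAlong (H.autK hq1 η hη) (H.autK_isIntegral hq1 η hη)).ord f ≤ 0 :=
    mul_nonpos_of_nonneg_of_nonpos (Int.natCast_nonneg _) hcon
  omega

theorem movePlace_mem_fibre (η : K) (hη : η ^ (q + 1) = 1) (v : Place K F) (c₀ : K)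
    (hv : 0 < v.ord (H.s - algebraMap K F c₀)) :
    0 < (H.movePlace hq1 η hη v).ord (H.s - algebraMap K F c₀) := by
  apply H.pos_ord_movePlace
  rw [map_sub, H.autK_s, AlgHom.commutes]
  exact hv

theorem movePlace_X1 (η : K) (hη : η ^ (q + 1) = 1) (v : Place K F) (α : K)
    (hv : 0 < v.ord (H.X1 - algebraMap K F α)) :
    0 < (H.movePlace hq1 η hη v).ord (H.X1 - algebraMap K F (η * α)) := by
  apply H.pos_ord_movePlace
  have hη0 : η ≠ 0 := by
    intro h
    rw [h, zero_pow (by omega)] at hη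
    exact zero_ne_one hη
  have h1 : H.autK hq1 η hη (H.X1 - algebraMap K F (η * α)) =
      algebraMap K F η * (H.X1 - algebraMap K F α) := by
    rw [map_sub, H.autK_X1, AlgHom.commutes, map_mul]
    ring
  rw [h1]
  by_cases h0 : H.X1 - algebraMap K F α = 0
  · rw [h0] at hv; simp at hv
  rw [v.ord_mul ((map_ne_zero_iff _ (algebraMap K F).injective).mpr hη0) h0,
    Fermat.Agent.S24Res.ord_algebraMap, zero_add]
  exact hv

include hq1 in
/-- **the fibres over `c₀ ≠ 0, 1` are unramified.** -/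
theorem card_fibre_of_ne (c₀ : K) (hc0 : c₀ ≠ 0) (hc1 : c₀ ≠ 1) :
    Nat.card {v : Place K F // 0 < v.ord (H.s - algebraMap K F c₀)} = q + 1 := by
  classical
  apply le_antisymm (H.card_fibre_le hq1 c₀)
  have hRR := H.isRRField hq1
  obtain ⟨v, hv⟩ := hp_exists_zero_sub hRR H.s_transcendental c₀
  have hX1 : v.ord H.X1 = 0 := H.ord_X1_of_zero_ne v hc0 hc1 hv
  obtain ⟨α, hα⟩ := exists_const_sub hRR v hX1.ge
  have hα' : 0 < v.ord (H.X1 - algebraMap K F α) := by
    rcases hα with hα | hα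
    · exact absurd (hα ▸ isAlgebraic_algebraMap α) H.transc
    · exact hα
  have hα0 : α ≠ 0 := by
    intro h
    rw [h, map_zero, sub_zero] at hα'
    omega
  haveI : NeZero ((q + 1 : ℕ) : K) := ⟨hq1⟩
  obtain ⟨ζ, hζ⟩ := HasEnoughRootsOfUnity.exists_primitiveRoot K (q + 1)
  have hR := hζ.card_nthRootsFinset
  haveI : Finite {v : Place K F // 0 < v.ord (H.s - algebraMap K F c₀)} :=
    finite_zeroFibre hRR H.s_transcendental c₀
  have hmem : ∀ η : nthRootsFinset (q + 1) (1 : K), (η : K) ^ (q + 1) = 1 := fun η =>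
    (mem_nthRootsFinset (by omega) 1).mp η.2
  let Φ : nthRootsFinset (q + 1) (1 : K) →
      {v : Place K F // 0 < v.ord (H.s - algebraMap K F c₀)} := fun η =>
    ⟨H.movePlace hq1 η (hmem η) v, H.movePlace_mem_fibre hq1 η (hmem η) v c₀ hv⟩
  have hΦ : Function.Injective Φ := by
    intro η η' h
    have h1 : H.movePlace hq1 η (hmem η) v = H.movePlace hq1 η' (hmem η') v :=
      congrArg Subtype.val h
    have h2 := H.movePlace_X1 hq1 η (hmem η) v α hα'
    have h3 := H.movePlace_X1 hq1 η' (hmem η') v α hα'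
    rw [← h1] at h3
    by_contra hne
    have hne' : (η : K) * α ≠ (η' : K) * α := by
      intro h4
      exact hne (Subtype.ext (mul_right_cancel₀ hα0 h4))
    have := ord_sub_const_eq_zero _ hne' h2
    omega
  have := Nat.card_le_card_of_injective Φ hΦ
  rw [Nat.card_eq_finsetCard, hR] at this
  exact this

end Unram

end HPCurve

end Fermat.Agent.HP
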