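import Mathlib
import Fermat.Agent.Lib.HP.Aut
import Fermat.Agent.Lib.RR.Hurwitz.Fibres

set_option autoImplicit false
set_option linter.unusedSectionVars false
set_option linter.unusedVariables false
set_option linter.style.haveILetI false

/-!
# The curve `H_P`: the genus

Tame Riemann-Hurwitz for `s : H_P → P¹` (degree `q + 1`, ramified over `0, 1, ∞` only):
`2 g + #fibre(1) = q + 1`, hence `g = (q - 1) / 2` for `q` odd and `g = q / 2` for `q` even
(`g = 1` for `q = 2`).
-/

noncomputable section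

open IntermediateField AlgebraicCurve Polynomial

namespace Fermat.Agent.HP

open Fermat.Agent.RR Fermat.Agent.RRHur

variable {K F : Type*} [Field K] [Field F] [Algebra K F] {q : ℕ}

/-- `ramDiv` is the tame ramification divisor as soon as the ramification over `S ∪ {∞}` is tame
and `x` is unramified elsewhere (any characteristic). -/
theorem hp_isTameRamDiv (h : IsRRField K F) {x : F} (hx : Transcendental K x)
    [FiniteDimensional K⟮x⟯ F] (S : Finset K)
    (hunr : ∀ c : K, c ∉ S →
      Nat.card {v : Place K F // 0 < v.ord (x - algebraMap K F c)} = Module.finrank K⟮x⟯ F)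
    (htame : ∀ c ∈ S, ∀ v : Place K F, 0 < v.ord (x - algebraMap K F c) →
      ((((v.ord (x - algebraMap K F c)).toNat : ℕ)) : K) ≠ 0)
    (htameInf : ∀ v : Place K F, v.ord x < 0 → (((-v.ord x).toNat : ℕ) : K) ≠ 0) :
    IsTameRamDiv x (ramDiv h x S) := by
  intro v
  refine ⟨fun hv => ⟨(ramDiv_apply_of_pole h S hv).ge, htameInf v hv⟩, fun c hv => ?_⟩
  by_cases hc : c ∈ S
  · exact ⟨by rw [ramDiv_apply_of_zero_mem h S hv hc], htame c hc v hv⟩
  · refine ⟨?_, ?_⟩
    · rw [ramDiv_apply_of_zero_notMem h S hv hc, ord_eq_one_of_card_eq h hx c (hunr c hc) v hv]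
      norm_num
    · rw [ord_eq_one_of_card_eq h hx c (hunr c hc) v hv]
      simp

/-- **Riemann-Hurwitz formula, tame case, any characteristic**, in terms of fibre counts. -/
theorem hp_hurwitz_formula_tame [IsAlgClosed K] (h : IsRRField K F) {x : F}
    (hx : Transcendental K x) [FiniteDimensional K⟮x⟯ F] [Algebra.IsSeparable K⟮x⟯ F]
    (S : Finset K)
    (hunr : ∀ c : K, c ∉ S →
      Nat.card {v : Place K F // 0 < v.ord (x - algebraMap K F c)} = Module.finrank K⟮x⟯ F)
    (htame : ∀ c ∈ S, ∀ v : Place K F, 0 < v.ord (x - algebraMap K F c) →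
      ((((v.ord (x - algebraMap K F c)).toNat : ℕ)) : K) ≠ 0)
    (htameInf : ∀ v : Place K F, v.ord x < 0 → (((-v.ord x).toNat : ℕ) : K) ≠ 0) :
    2 * (genusFF K F : ℤ) - 2 + 2 * (Module.finrank K⟮x⟯ F : ℤ) =
      ∑ c ∈ S, ((Module.finrank K⟮x⟯ F : ℤ) -
        (Nat.card {v : Place K F // 0 < v.ord (x - algebraMap K F c)} : ℤ)) +
      ((Module.finrank K⟮x⟯ F : ℤ) - (Nat.card {v : Place K F // v.ord x < 0} : ℤ)) := by
  apply le_antisymm
  · rw [← degree_ramDiv h hx S]
    exact hurwitz_upper_tame h hx _ (hp_isTameRamDiv h hx S hunr htame htameInf)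
  · exact hurwitz_lower_fibres h hx S

namespace HPCurve

variable (H : HPCurve K F q)

section Genus

variable [IsAlgClosed K] (hq1 : ((q + 1 : ℕ) : K) ≠ 0)

include hq1

/-- the pole of `s` has order `q + 1`. -/
theorem ord_pole_eq (v : Place K F) (hv : v.ord H.s < 0) : -v.ord H.s = (q : ℤ) + 1 := by
  haveI := H.isSeparable hq1
  obtain ⟨S, hS, hsum⟩ := exists_finset_poles_of_separable H.s_transcendental
  rw [H.finrank_eq hq1] at hsum
  have hvS : v ∈ S := (hS v).mpr hv
  have hle := Finset.single_le_sum (f := fun w => -w.ord H.s)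
    (fun w hw => by have := (hS w).mp hw; omega) hvS
  rw [hsum] at hle
  push_cast at hle
  have h2 := H.ord_s_of_neg v hv
  have hq0 : (0 : ℤ) ≤ q := Int.natCast_nonneg q
  have h3 : v.ord H.X1 + v.ord H.s ≤ -1 := by
    by_contra hcon
    push Not at hcon
    have : 0 ≤ ((q : ℤ) + 1) * (v.ord H.X1 + v.ord H.s) := mul_nonneg (by positivity) (by omega)
    omega
  have h4 : ((q : ℤ) + 1) * (v.ord H.X1 + v.ord H.s) ≤ ((q : ℤ) + 1) * (-1) :=
    mul_le_mul_of_nonneg_left h3 (by positivity)
  linarith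

/-- the zero of `s` has order `q + 1`. -/
theorem ord_zero_eq (v : Place K F) (hv : 0 < v.ord (H.s - algebraMap K F 0)) :
    v.ord (H.s - algebraMap K F 0) = (q : ℤ) + 1 := by
  have hle := H.ord_le_finrank hq1 0 v hv
  rw [H.s_sub_zero] at hv hle ⊢
  have h2 := H.ord_s_of_pos v hv
  have hq0 : (0 : ℤ) ≤ q := Int.natCast_nonneg q
  have h3 : 1 ≤ -v.ord H.X1 := by
    by_contra hcon
    push Not at hcon
    have : ((q : ℤ) + 1) * (-v.ord H.X1) ≤ 0 :=
      mul_nonpos_of_nonneg_of_nonpos (by positivity) (by omega)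
    omega
  have h4 : ((q : ℤ) + 1) * 1 ≤ ((q : ℤ) + 1) * (-v.ord H.X1) :=
    mul_le_mul_of_nonneg_left h3 (by positivity)
  linarith

theorem natCast_q_add_one_toNat : ((((q : ℤ) + 1).toNat : ℕ) : K) ≠ 0 := by
  have : ((q : ℤ) + 1).toNat = q + 1 := by
    have : ((q : ℤ) + 1) = ((q + 1 : ℕ) : ℤ) := by push_cast; ring
    rw [this, Int.toNat_natCast]
  rw [this]
  exact hq1

/-- tameness over `s = 1`. -/
theorem tame_at_one (v : Place K F) (hv : 0 < v.ord (H.s - algebraMap K F 1)) :
    ((((v.ord (H.s - algebraMap K F 1)).toNat : ℕ)) : K) ≠ 0 := by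
  rcases Nat.even_or_odd q with hq | hq
  · rw [H.ord_at_one_even hq1 hq v hv]
    exact natCast_q_add_one_toNat hq1
  · have h1 := H.ord_at_one_odd hq v hv
    have h2 := H.ord_le_finrank hq1 1 v hv
    have hm := H.two_mul_m hq
    have hmpos := H.m_pos hq
    set e := v.ord (H.s - algebraMap K F 1) with he
    set k := v.ord H.X1 + e with hk
    have hmZ : ((q : ℤ) + 1) = 2 * (H.m : ℤ) := by exact_mod_cast hm.symm
    have hm0 : (0 : ℤ) < (H.m : ℤ) := by exact_mod_cast hmpos
    have hk1 : 1 ≤ k := by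
      by_contra hcon
      push Not at hcon
      have : (H.m : ℤ) * k ≤ 0 := mul_nonpos_of_nonneg_of_nonpos hm0.le (by omega)
      omega
    have hk2 : k ≤ 2 := by
      by_contra hcon
      push Not at hcon
      have : (H.m : ℤ) * 3 ≤ (H.m : ℤ) * k := mul_le_mul_of_nonneg_left (by omega) hm0.le
      omega
    have hmK : ((H.m : ℕ) : K) ≠ 0 := by
      intro h0
      apply hq1
      rw [← hm]
      push_cast
      rw [h0, mul_zero]
    have hk3 : k = 1 ∨ k = 2 := by omega
    rcases hk3 with hk3 | hk3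
    · rw [h1, hk3, mul_one, Int.toNat_natCast]
      exact hmK
    · have : e = ((q + 1 : ℕ) : ℤ) := by
        rw [h1, hk3]; push_cast; linarith
      rw [this, Int.toNat_natCast]
      exact hq1

/-- **Riemann-Hurwitz for `H_P`**: `2 g + #fibre(1) = q + 1`. -/
theorem two_genus_add_card :
    2 * (genusFF K F : ℤ) +
      (Nat.card {v : Place K F // 0 < v.ord (H.s - algebraMap K F 1)} : ℤ) = (q : ℤ) + 1 := by
  classical
  haveI := H.isSeparable hq1
  have hRR := H.isRRField hq1
  have hform := hp_hurwitz_formula_tame hRR H.s_transcendental ({0, 1} : Finset K)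
    (fun c hc => by
      rw [Finset.mem_insert, Finset.mem_singleton, not_or] at hc
      rw [H.card_fibre_of_ne hq1 c hc.1 hc.2, H.finrank_eq hq1])
    (fun c hc v hv => by
      rw [Finset.mem_insert, Finset.mem_singleton] at hc
      rcases hc with rfl | rfl
      · rw [H.ord_zero_eq hq1 v hv]
        exact natCast_q_add_one_toNat hq1
      · exact H.tame_at_one hq1 v hv)
    (fun v hv => by
      rw [H.ord_pole_eq hq1 v hv]
      exact natCast_q_add_one_toNat hq1)
  rw [Finset.sum_pair zero_ne_one, H.finrank_eq hq1, H.card_zero_fibre hq1,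
    H.card_pole_fibre hq1] at hform
  set N : ℤ := (Nat.card {v : Place K F // 0 < v.ord (H.s - algebraMap K F 1)} : ℤ) with hN
  have e1 : ((q + 1 : ℕ) : ℤ) = (q : ℤ) + 1 := by push_cast; ring
  rw [e1] at hform
  have e2 : ((1 : ℕ) : ℤ) = 1 := by norm_num
  rw [e2] at hform
  linarith

include H in
/-- `q` odd: `2 g = q - 1`. -/
theorem two_genus_odd (hq : Odd q) (h2 : (2 : K) ≠ 0) : 2 * genusFF K F + 1 = q := by
  have h1 := H.two_genus_add_card hq1
  rw [H.card_one_fibre_odd hq1 hq h2] at h1
  push_cast at h1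
  omega

include H in
/-- `q` odd: the genus of `H_P` is `(q - 1) / 2`. -/
theorem genus_odd (hq : Odd q) (h2 : (2 : K) ≠ 0) : genusFF K F = (q - 1) / 2 := by
  have := H.two_genus_odd hq1 hq h2
  omega

include H in
/-- `q` even: `2 g = q`. -/
theorem two_genus_even (hq : Even q) : 2 * genusFF K F = q := by
  have h1 := H.two_genus_add_card hq1
  rw [H.card_one_fibre_even hq1 hq] at h1
  push_cast at h1
  omega

include H in
/-- `q = 2`: the genus of `H_P` is `1`. -/
theorem genus_two (hq : q = 2) : genusFF K F = 1 := by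
  have := H.two_genus_even hq1 (by rw [hq]; exact even_two)
  omega

end Genus

end HPCurve

end Fermat.Agent.HP
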