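import Mathlib
import Fermat.Agent.Lib.HP.Genus

set_option autoImplicit false
set_option linter.unusedSectionVars false
set_option linter.unusedVariables false
set_option linter.style.haveILetI false

/-!
# The curve `H_P`: the ends

The ends of `H_P` are the places where `X₁` or `X₂` has a zero or a pole:
* `pInf`  : the zero of `s`:   `ord s = q + 1`, `ord X₁ = -1`, `ord X₂ = q`;
* `pZero` : the pole of `s`:   `ord s = -(q + 1)`, `ord X₁ = q`, `ord X₂ = -1`;
* the places over `s = 1` (two for `q` odd, one for `q` even):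
  `ord X₁ = ord X₂ = -e`, `e = (q - 1) / 2` resp. `q - 1`.
At all other places `X₁`, `X₂`, `s`, `1 - s` are units.
-/

noncomputable section

open IntermediateField AlgebraicCurve Polynomial

namespace Fermat.Agent.HP

open Fermat.Agent.RR Fermat.Agent.RRHur

variable {K F : Type*} [Field K] [Field F] [Algebra K F] {q : ℕ}

namespace HPCurve

variable (H : HPCurve K F q)

theorem ord_X2 (v : Place K F) : v.ord H.X2 = v.ord H.s + v.ord H.X1 := by
  conv_lhs => rw [H.X2_eq]
  exact v.ord_mul H.s_ne H.X1_ne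

section Ends

variable [IsAlgClosed K] (hq1 : ((q + 1 : ℕ) : K) ≠ 0)

include hq1 in
theorem exists_zero_s : ∃ v : Place K F, 0 < v.ord H.s :=
  hp_exists_zero (H.isRRField hq1) H.s_transcendental

include hq1 in
theorem exists_pole_s : ∃ v : Place K F, v.ord H.s < 0 := by
  obtain ⟨v, hv⟩ := exists_pole (H.isRRField hq1) H.s_transcendental
  exact ⟨v, (one_lt_adicValuation_iff v).mp hv⟩

/-- the end `p_∞` of `H_P`: the zero of `s = X₂ / X₁`. -/
def pInf : Place K F := (H.exists_zero_s hq1).choose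

/-- the end `p_0` of `H_P`: the pole of `s = X₂ / X₁`. -/
def pZero : Place K F := (H.exists_pole_s hq1).choose

theorem pInf_spec : 0 < (H.pInf hq1).ord H.s := (H.exists_zero_s hq1).choose_spec

theorem pZero_spec : (H.pZero hq1).ord H.s < 0 := (H.exists_pole_s hq1).choose_spec

/-- uniqueness of the zero of `s`. -/
theorem eq_pInf (v : Place K F) (hv : 0 < v.ord H.s) : v = H.pInf hq1 := by
  have hc := H.card_zero_fibre hq1
  haveI : Finite {v : Place K F // 0 < v.ord (H.s - algebraMap K F 0)} :=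
    Nat.finite_of_card_ne_zero (by rw [hc]; exact one_ne_zero)
  have hsub := (Nat.card_eq_one_iff_unique.mp hc).1
  have h1 : (⟨v, by rw [H.s_sub_zero]; exact hv⟩ :
      {v : Place K F // 0 < v.ord (H.s - algebraMap K F 0)}) =
      ⟨H.pInf hq1, by rw [H.s_sub_zero]; exact H.pInf_spec hq1⟩ := Subsingleton.elim _ _
  exact congrArg Subtype.val h1

/-- uniqueness of the pole of `s`. -/
theorem eq_pZero (v : Place K F) (hv : v.ord H.s < 0) : v = H.pZero hq1 := by
  have hc := H.card_pole_fibre hq1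
  haveI : Finite {v : Place K F // v.ord H.s < 0} :=
    Nat.finite_of_card_ne_zero (by rw [hc]; exact one_ne_zero)
  have hsub := (Nat.card_eq_one_iff_unique.mp hc).1
  have h1 : (⟨v, hv⟩ : {v : Place K F // v.ord H.s < 0}) = ⟨H.pZero hq1, H.pZero_spec hq1⟩ :=
    Subsingleton.elim _ _
  exact congrArg Subtype.val h1

theorem ord_s_pos_iff (v : Place K F) : 0 < v.ord H.s ↔ v = H.pInf hq1 :=
  ⟨H.eq_pInf hq1 v, fun h => h ▸ H.pInf_spec hq1⟩

theorem ord_s_neg_iff (v : Place K F) : v.ord H.s < 0 ↔ v = H.pZero hq1 :=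
  ⟨H.eq_pZero hq1 v, fun h => h ▸ H.pZero_spec hq1⟩

theorem pInf_ne_pZero : H.pInf hq1 ≠ H.pZero hq1 := by
  intro h
  have h1 := H.pInf_spec hq1
  have h2 := H.pZero_spec hq1
  rw [← h] at h2
  omega

/-! ### orders at `pInf` -/

theorem ord_s_pInf : (H.pInf hq1).ord H.s = (q : ℤ) + 1 := by
  have := H.ord_zero_eq hq1 (H.pInf hq1) (by rw [H.s_sub_zero]; exact H.pInf_spec hq1)
  rwa [H.s_sub_zero] at this

theorem ord_X1_pInf : (H.pInf hq1).ord H.X1 = -1 := by
  have h1 := H.ord_s_of_pos (H.pInf hq1) (H.pInf_spec hq1)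
  rw [H.ord_s_pInf hq1] at h1
  have hq0 : (0 : ℤ) ≤ q := Int.natCast_nonneg q
  have h2 : ((q : ℤ) + 1) * (-(H.pInf hq1).ord H.X1 - 1) = 0 := by linarith
  rcases mul_eq_zero.mp h2 with h3 | h3
  · omega
  · omega

theorem ord_X2_pInf : (H.pInf hq1).ord H.X2 = (q : ℤ) := by
  rw [H.ord_X2, H.ord_s_pInf hq1, H.ord_X1_pInf hq1]
  ring

/-! ### orders at `pZero` -/

theorem ord_s_pZero : (H.pZero hq1).ord H.s = -((q : ℤ) + 1) := by
  have := H.ord_pole_eq hq1 (H.pZero hq1) (H.pZero_spec hq1)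
  omega

theorem ord_X1_pZero : (H.pZero hq1).ord H.X1 = (q : ℤ) := by
  have h1 := H.ord_s_of_neg (H.pZero hq1) (H.pZero_spec hq1)
  rw [H.ord_s_pZero hq1] at h1
  have hq0 : (0 : ℤ) ≤ q := Int.natCast_nonneg q
  have h2 : ((q : ℤ) + 1) * ((H.pZero hq1).ord H.X1 - (q : ℤ)) = 0 := by linarith
  rcases mul_eq_zero.mp h2 with h3 | h3
  · omega
  · omega

theorem ord_X2_pZero : (H.pZero hq1).ord H.X2 = -1 := by
  rw [H.ord_X2, H.ord_s_pZero hq1, H.ord_X1_pZero hq1]
  ring

/-! ### orders over `s = 1` -/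

include hq1 in
/-- `q` even: over `s = 1`, `ord X₁ = -(q - 1)`. -/
theorem ord_X1_mid_even (hq : Even q) (v : Place K F)
    (hv : 0 < v.ord (H.s - algebraMap K F 1)) : v.ord H.X1 = -((q : ℤ) - 1) := by
  have h1 := H.ord_at_one v hv
  rw [H.ord_at_one_even hq1 hq v hv] at h1
  have hq0 : (0 : ℤ) ≤ q := Int.natCast_nonneg q
  have h2 : ((q : ℤ) + 1) * (v.ord H.X1 + ((q : ℤ) - 1)) = 0 := by linarith
  rcases mul_eq_zero.mp h2 with h3 | h3
  · omega
  · omega

include hq1 in
/-- `q` odd: over `s = 1` the ramification index is exactly `m = (q + 1) / 2`. -/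
theorem ord_mid_odd (hq : Odd q) (h2 : (2 : K) ≠ 0) (v : Place K F)
    (hv : 0 < v.ord (H.s - algebraMap K F 1)) :
    v.ord (H.s - algebraMap K F 1) = (H.m : ℤ) := by
  classical
  haveI := H.isSeparable hq1
  obtain ⟨S, hS, hsum⟩ := exists_finset_zeros_of_separable H.s_transcendental (1 : K)
  rw [H.finrank_eq hq1] at hsum
  have hcard : Nat.card {v : Place K F // 0 < v.ord (H.s - algebraMap K F 1)} = S.card := by
    rw [← Nat.card_eq_finsetCard S]
    exact Nat.card_congr (Equiv.subtypeEquivRight fun v => (hS v).symm)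
  have hS2 : S.card = 2 := by rw [← hcard, H.card_one_fibre_odd hq1 hq h2]
  have hvS : v ∈ S := (hS v).mpr hv
  -- another place w
  have hex : ∃ w ∈ S, w ≠ v := by
    by_contra hcon
    push Not at hcon
    have : S ⊆ {v} := fun w hw => Finset.mem_singleton.mpr (hcon w hw)
    have := Finset.card_le_card this
    rw [hS2, Finset.card_singleton] at this
    omega
  obtain ⟨w, hwS, hwv⟩ := hex
  have hle : (H.m : ℤ) ≤ v.ord (H.s - algebraMap K F 1) := H.m_le_ord_at_one hq v hv
  have hle' : (H.m : ℤ) ≤ w.ord (H.s - algebraMap K F 1) :=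
    H.m_le_ord_at_one hq w ((hS w).mp hwS)
  have hpair : ({v, w} : Finset (Place K F)) ⊆ S := by
    intro u hu
    rw [Finset.mem_insert, Finset.mem_singleton] at hu
    rcases hu with rfl | rfl
    · exact hvS
    · exact hwS
  have hsum2 := Finset.sum_le_sum_of_subset_of_nonneg hpair
    (f := fun u => u.ord (H.s - algebraMap K F 1))
    (fun u hu _ => ((hS u).mp hu).le)
  rw [Finset.sum_pair (Ne.symm hwv), hsum] at hsum2
  have hm : ((q + 1 : ℕ) : ℤ) = 2 * (H.m : ℤ) := by exact_mod_cast (H.two_mul_m hq).symm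
  rw [hm] at hsum2
  omega

include hq1 in
/-- `q` odd: over `s = 1`, `ord X₁ = -(m - 1) = -(q - 1) / 2`. -/
theorem ord_X1_mid_odd (hq : Odd q) (h2 : (2 : K) ≠ 0) (v : Place K F)
    (hv : 0 < v.ord (H.s - algebraMap K F 1)) : v.ord H.X1 = -((H.m : ℤ) - 1) := by
  have h1 := H.ord_at_one_odd hq v hv
  rw [H.ord_mid_odd hq1 hq h2 v hv] at h1
  have hmpos : (0 : ℤ) < (H.m : ℤ) := by exact_mod_cast H.m_pos hq
  have h3 : (H.m : ℤ) * (v.ord H.X1 + (H.m : ℤ) - 1) = 0 := by linarith
  rcases mul_eq_zero.mp h3 with h4 | h4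
  · omega
  · omega

/-- over `s = 1`: `ord X₂ = ord X₁`. -/
theorem ord_X2_mid (v : Place K F) (hv : 0 < v.ord (H.s - algebraMap K F 1)) :
    v.ord H.X2 = v.ord H.X1 := by
  rw [H.ord_X2, H.ord_s_of_zero_ne v one_ne_zero hv, zero_add]

/-! ### the other places -/

/-- at a place which is not an end, `X₁` is a unit. -/
theorem ord_X1_of_not_end (v : Place K F) (h0 : v.ord H.s = 0)
    (h1 : v.ord (H.s - algebraMap K F 1) ≤ 0) : v.ord H.X1 = 0 := by
  have hmem : H.s ∈ v.toValuationSubring := Fermat.Agent.S24Res.mem_of_ord_nonneg v h0.ge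
  have hmem1 : H.s - algebraMap K F 1 ∈ v.toValuationSubring :=
    sub_mem hmem (v.algebraMap_mem' 1)
  have h2 : 0 ≤ v.ord (H.s - algebraMap K F 1) := Fermat.Agent.S24Res.ord_nonneg_of_mem v hmem1
  have h3 : v.ord (1 - H.s) = 0 := by rw [H.ord_one_sub_s]; omega
  have h4 := H.ord_rel v
  rw [h0, h3] at h4
  have hq0 : (0 : ℤ) ≤ q := Int.natCast_nonneg q
  have h5 : ((q : ℤ) + 1) * v.ord H.X1 = 0 := by linarith
  rcases mul_eq_zero.mp h5 with h6 | h6
  · omega
  · exact h6

theorem ord_X2_of_not_end (v : Place K F) (h0 : v.ord H.s = 0)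
    (h1 : v.ord (H.s - algebraMap K F 1) ≤ 0) : v.ord H.X2 = 0 := by
  rw [H.ord_X2, h0, H.ord_X1_of_not_end v h0 h1, zero_add]

/-! ### zeros and poles of `X₁`, `X₂` -/

include hq1 in
/-- the only zero of `X₁` is `pZero`. -/
theorem ord_X1_pos_iff (v : Place K F) : 0 < v.ord H.X1 ↔ v = H.pZero hq1 := by
  constructor
  · intro hv
    by_contra hne
    have hs : ¬ v.ord H.s < 0 := fun h => hne (H.eq_pZero hq1 v h)
    by_cases hs0 : 0 < v.ord H.s
    · have := H.eq_pInf hq1 v hs0
      rw [this, H.ord_X1_pInf hq1] at hv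
      omega
    have hs1 : v.ord H.s = 0 := by omega
    by_cases h1 : 0 < v.ord (H.s - algebraMap K F 1)
    · have h3 := H.ord_at_one v h1
      have hle := H.ord_le_finrank hq1 1 v h1
      have hq0 : (0 : ℤ) ≤ q := Int.natCast_nonneg q
      -- 2 e = (q+1)(a + e) with a > 0, e > 0, e ≤ q + 1: then (q+1)(a+e) ≥ (q+1)(e+1) > 2e.
      have h4 : ((q : ℤ) + 1) * (v.ord (H.s - algebraMap K F 1) + 1) ≤
          ((q : ℤ) + 1) * (v.ord H.X1 + v.ord (H.s - algebraMap K F 1)) :=
        mul_le_mul_of_nonneg_left (by omega) (by positivity)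
      have hq2 : (2 : ℤ) ≤ q := by exact_mod_cast H.q_two
      nlinarith
    · have := H.ord_X1_of_not_end v hs1 (by omega)
      omega
  · intro h
    rw [h, H.ord_X1_pZero hq1]
    have := H.q_two
    exact_mod_cast (by omega : 0 < q)

include hq1 in
/-- the only zero of `X₂` is `pInf`. -/
theorem ord_X2_pos_iff (v : Place K F) : 0 < v.ord H.X2 ↔ v = H.pInf hq1 := by
  constructor
  · intro hv
    by_contra hne
    have hs : ¬ 0 < v.ord H.s := fun h => hne (H.eq_pInf hq1 v h)
    by_cases hs0 : v.ord H.s < 0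
    · have := H.eq_pZero hq1 v hs0
      rw [this, H.ord_X2_pZero hq1] at hv
      omega
    have hs1 : v.ord H.s = 0 := by omega
    rw [H.ord_X2, hs1, zero_add] at hv
    have := (H.ord_X1_pos_iff hq1 v).mp hv
    rw [this] at hs1
    have := H.pZero_spec hq1
    omega
  · intro h
    rw [h, H.ord_X2_pInf hq1]
    have := H.q_two
    exact_mod_cast (by omega : 0 < q)

include hq1 in
/-- the poles of `X₁` are `pInf` and the places over `s = 1`. -/
theorem ord_X1_neg_iff (v : Place K F) :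
    v.ord H.X1 < 0 ↔ v = H.pInf hq1 ∨ 0 < v.ord (H.s - algebraMap K F 1) := by
  constructor
  · intro hv
    by_cases h1 : 0 < v.ord (H.s - algebraMap K F 1)
    · exact Or.inr h1
    left
    by_contra hne
    have hs : ¬ 0 < v.ord H.s := fun h => hne (H.eq_pInf hq1 v h)
    by_cases hs0 : v.ord H.s < 0
    · have := H.eq_pZero hq1 v hs0
      rw [this, H.ord_X1_pZero hq1] at hv
      have hq0 : (0 : ℤ) ≤ q := Int.natCast_nonneg q
      omega
    have := H.ord_X1_of_not_end v (by omega) (by omega)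
    omega
  · rintro (h | h)
    · rw [h, H.ord_X1_pInf hq1]; norm_num
    · have h3 := H.ord_at_one v h
      have hle := H.ord_le_finrank hq1 1 v h
      have hq2 : (2 : ℤ) ≤ q := by exact_mod_cast H.q_two
      by_contra hcon
      push Not at hcon
      have h4 : ((q : ℤ) + 1) * (v.ord (H.s - algebraMap K F 1)) ≤
          ((q : ℤ) + 1) * (v.ord H.X1 + v.ord (H.s - algebraMap K F 1)) :=
        mul_le_mul_of_nonneg_left (by omega) (by positivity)
      nlinarith

include hq1 in
/-- the poles of `X₂` are `pZero` and the places over `s = 1`. -/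
theorem ord_X2_neg_iff (v : Place K F) :
    v.ord H.X2 < 0 ↔ v = H.pZero hq1 ∨ 0 < v.ord (H.s - algebraMap K F 1) := by
  constructor
  · intro hv
    by_cases h1 : 0 < v.ord (H.s - algebraMap K F 1)
    · exact Or.inr h1
    left
    by_contra hne
    have hs : ¬ v.ord H.s < 0 := fun h => hne (H.eq_pZero hq1 v h)
    by_cases hs0 : 0 < v.ord H.s
    · have := H.eq_pInf hq1 v hs0
      rw [this, H.ord_X2_pInf hq1] at hv
      have hq0 : (0 : ℤ) ≤ q := Int.natCast_nonneg q
      omega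
    have := H.ord_X2_of_not_end v (by omega) (by omega)
    omega
  · rintro (h | h)
    · rw [h, H.ord_X2_pZero hq1]; norm_num
    · rw [H.ord_X2_mid v h]
      exact (H.ord_X1_neg_iff hq1 v).mpr (Or.inr h)

end Ends

end HPCurve

end Fermat.Agent.HP
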