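import Mathlib
import Fermat.Agent.Lib.HP.Ends
import Fermat.Agent.Lib.RR.Hurwitz.Count

set_option autoImplicit false
set_option linter.unusedSectionVars false
set_option linter.unusedVariables false
set_option linter.style.haveILetI false

/-!
# The curve `H_P`: the degrees of `X₁` and `X₂`

`[F : K(X₁)] = q = [F : K(X₂)]` (the zero divisor of `X₁` is `q · pZero`, that of `X₂` is
`q · pInf`).
-/

noncomputable section

open IntermediateField AlgebraicCurve Polynomial

namespace Fermat.Agent.HP

open Fermat.Agent.RR Fermat.Agent.RRHur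

variable {K F : Type*} [Field K] [Field F] [Algebra K F] {q : ℕ}

/-- the degree of a transcendental function whose only zero is `P`, of order `n`. -/
theorem hp_finrank_of_single_zero [IsAlgClosed K] (h : IsRRField K F) {x : F}
    (hx : Transcendental K x) [FiniteDimensional K⟮x⟯ F] (P : Place K F) (n : ℕ)
    (hP : P.ord x = n) (hz : ∀ v : Place K F, 0 < v.ord x → v = P) :
    Module.finrank K⟮x⟯ F = n := by
  have hx' : Transcendental K x⁻¹ := fun halg => hx (by simpa using halg.inv)
  have hadj : K⟮x⁻¹⟯ = K⟮x⟯ := Fermat.Agent.RR.adjoin_simple_inv_eq x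
  haveI : FiniteDimensional K⟮x⁻¹⟯ F := by rw [hadj]; infer_instance
  have h1 := degree_poleDiv_eq_finrank h hx'
  have h2 : poleDiv h x⁻¹ = Finsupp.single P (n : ℤ) := by
    ext v
    rw [poleDiv_apply, Place.ord_inv, neg_neg]
    by_cases hv : v = P
    · rw [hv, Finsupp.single_eq_same, hP]
      exact max_eq_left (Int.natCast_nonneg n)
    · rw [Finsupp.single_eq_of_ne hv]
      apply max_eq_right
      by_contra hcon
      push Not at hcon
      exact hv (hz v hcon)
  rw [h2, degree_single_one h] at h1
  have h3 : Module.finrank K⟮x⁻¹⟯ F = Module.finrank K⟮x⟯ F := by rw [hadj]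
  rw [h3] at h1
  exact_mod_cast h1.symm

namespace HPCurve

variable (H : HPCurve K F q)

section Deg

variable [IsAlgClosed K] (hq1 : ((q + 1 : ℕ) : K) ≠ 0)

theorem isFunctionFieldOver_s : Fermat.Agent.S24Diff.IsFunctionFieldOver K F H.s :=
  ⟨H.s_transcendental, H.finiteDimensional⟩

theorem finiteDimensional_X1 : FiniteDimensional K⟮H.X1⟯ F :=
  Fermat.Agent.S24Res.finiteDimensional_adjoin_simple H.isFunctionFieldOver_s H.transc

include hq1 in
theorem X2_transcendental : Transcendental K H.X2 := by
  apply Fermat.Agent.S24Res.transcendental_of_ord_ne_zero (H.pInf hq1)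
  rw [H.ord_X2_pInf hq1]
  have := H.q_two
  exact_mod_cast (by omega : q ≠ 0)

include hq1 in
theorem finiteDimensional_X2 : FiniteDimensional K⟮H.X2⟯ F :=
  Fermat.Agent.S24Res.finiteDimensional_adjoin_simple H.isFunctionFieldOver_s
    (H.X2_transcendental hq1)

include hq1 in
/-- `[F : K(X₁)] = q`. -/
theorem finrank_X1 : Module.finrank K⟮H.X1⟯ F = q := by
  haveI := H.finiteDimensional_X1
  exact hp_finrank_of_single_zero (H.isRRField hq1) H.transc (H.pZero hq1) q
    (H.ord_X1_pZero hq1) fun v hv => (H.ord_X1_pos_iff hq1 v).mp hv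

include hq1 in
/-- `[F : K(X₂)] = q`. -/
theorem finrank_X2 : Module.finrank K⟮H.X2⟯ F = q := by
  haveI := H.finiteDimensional_X2 hq1
  exact hp_finrank_of_single_zero (H.isRRField hq1) (H.X2_transcendental hq1) (H.pInf hq1) q
    (H.ord_X2_pInf hq1) fun v hv => (H.ord_X2_pos_iff hq1 v).mp hv

end Deg

end HPCurve

end Fermat.Agent.HP
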