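import Mathlib
import Fermat.Agent.Lib.HP.Sep
import Fermat.Agent.S36.Cover.InvOrbit
import Fermat.Agent.R38.P.NormSep

set_option autoImplicit false
set_option linter.unusedSectionVars false
set_option linter.unusedVariables false
set_option linter.style.haveILetI false

/-!
# The curve `H_P`: orders of the norms to `K(X₁)` and `K(X₂)`   (Step 2, link with (N3))

`E = K(x)` a rational function field, `F / E` finite separable with `x ↦ X₁`.  For `f ≠ 0` in `F`:
* `ord_{x = 0} (N_{F/E} f) = ord_{pZero} f`          (the only place over `X₁ = 0` is `pZero`);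
* `ord_{x = ∞} (N_{F/E} f) = ord_{pInf} f + ∑_{v | s = 1} ord_v f`.
Hence if `N_{F/E} f = c · u ^ n` then `n ∣ ord_{pZero} f` and `n ∣ ord_{pInf} f + ∑_mid ord_v f`.
The same with `X₂` (exchange `pInf` and `pZero`).
-/

noncomputable section

open IntermediateField AlgebraicCurve Polynomial

namespace Fermat.Agent.HP

open Fermat.Agent.RR Fermat.Agent.RRHur Fermat.Agent.S24Diff

variable {K F : Type*} [Field K] [Field F] [Algebra K F] {q : ℕ}

section Rational

variable {E : Type*} [Field E] [Algebra K E]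

/-- in `E = K(x)` the function `x` has at most one pole. -/
theorem hp_pole_unique {x : E} (hgen : K⟮x⟯ = ⊤) (v v' : Place K E) (hv : v.ord x < 0)
    (hv' : v'.ord x < 0) : v = v' := by
  by_contra hne
  apply Fermat.Agent.S36Cover.ik_not_le_of_ne hne
  intro y hy
  rcases eq_or_ne y 0 with rfl | hy0
  · exact zero_mem _
  have hmem : y ∈ K⟮x⟯ := by rw [hgen]; exact IntermediateField.mem_top
  obtain ⟨m, hm⟩ := Fermat.Agent.S36Cover.ik_ord_eq_mul_of_mem_adjoin_pole hmem hy0
  have h1 := hm v hv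
  have h2 := hm v' hv'
  have h3 : 0 ≤ v.ord y := Fermat.Agent.S24Res.ord_nonneg_of_mem v hy
  apply Fermat.Agent.S24Res.mem_of_ord_nonneg
  rw [h2]
  rw [h1] at h3
  have hm0 : m ≤ 0 := by
    by_contra hcon
    push Not at hcon
    have : m * v.ord x < 0 := mul_neg_of_pos_of_neg hcon hv
    omega
  exact mul_nonneg_of_nonpos_of_nonpos hm0 hv'.le

/-- in `E = K(x)` the function `x` has at most one zero. -/
theorem hp_zero_unique {x : E} (hgen : K⟮x⟯ = ⊤) (v v' : Place K E) (hv : 0 < v.ord x)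
    (hv' : 0 < v'.ord x) : v = v' := by
  have hgen' : K⟮x⁻¹⟯ = ⊤ := by
    apply top_unique
    rw [← hgen, IntermediateField.adjoin_simple_le_iff]
    have h1 : x⁻¹ ∈ K⟮x⁻¹⟯ := IntermediateField.mem_adjoin_simple_self K _
    simpa using K⟮x⁻¹⟯.inv_mem h1
  exact hp_pole_unique hgen' v v' (by rw [Place.ord_inv]; omega) (by rw [Place.ord_inv]; omega)

end Rational

namespace HPCurve

variable (H : HPCurve K F q)

section Norm

variable [IsAlgClosed K] (hq1 : ((q + 1 : ℕ) : K) ≠ 0)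
variable {E : Type*} [Field E] [Algebra K E] [Algebra E F] [IsScalarTower K E F]
  [FiniteDimensional E F] [Algebra.IsSeparable E F]

include H hq1 in
theorem hasPrincipalDivisors : HasPrincipalDivisors K F :=
  ⟨(H.isRRField hq1).principal⟩

/-- the order of the norm at the zero of `x`. -/
theorem ord_norm_X1_zero {x : E} (hE : IsFunctionFieldOver K E x) (hgen : K⟮x⟯ = ⊤)
    (hx : algebraMap E F x = H.X1) {f : F} (hf : f ≠ 0) :
    ((H.pZero hq1).restrict E).ord (Algebra.norm E f) = (H.pZero hq1).ord f := by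
  classical
  haveI := H.hasPrincipalDivisors hq1
  rw [Fermat.Agent.R38.r38pl_ord_norm_global F ((H.pZero hq1).restrict E) hE f hf]
  have hfib : ((H.pZero hq1).restrict E).fiber F = {H.pZero hq1} := by
    ext w
    rw [Place.mem_fiber, Finset.mem_singleton]
    constructor
    · intro hw
      apply (H.ord_X1_pos_iff hq1 w).mp
      have h1 := (H.pZero hq1).ord_restrict (F := E) x
      have h2 := w.ord_restrict (F := E) x
      rw [hx] at h1 h2
      rw [H.ord_X1_pZero hq1] at h1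
      rw [hw] at h2
      have hq := H.q_two
      have hpos : 0 < ((H.pZero hq1).restrict E).ord x := by
        by_contra hcon
        push Not at hcon
        have : (((H.pZero hq1).ramificationIndex E : ℕ) : ℤ) *
            ((H.pZero hq1).restrict E).ord x ≤ 0 :=
          mul_nonpos_of_nonneg_of_nonpos (Int.natCast_nonneg _) hcon
        have hq' : (0 : ℤ) < q := by exact_mod_cast (by omega : 0 < q)
        omega
      rw [h2]
      exact mul_pos (by exact_mod_cast w.ramificationIndex_pos (F := E)) hpos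
    · intro hw
      rw [hw]
  rw [hfib, Finset.sum_singleton]

/-- the order of the norm at the pole of `x`. -/
theorem ord_norm_X1_pole {x : E} (hE : IsFunctionFieldOver K E x) (hgen : K⟮x⟯ = ⊤)
    (hx : algebraMap E F x = H.X1) {f : F} (hf : f ≠ 0) (T : Finset (Place K F))
    (hT : ∀ v, v ∈ T ↔ 0 < v.ord (H.s - algebraMap K F 1)) :
    ((H.pInf hq1).restrict E).ord (Algebra.norm E f) =
      (H.pInf hq1).ord f + ∑ v ∈ T, v.ord f := by
  classical
  haveI := H.hasPrincipalDivisors hq1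
  rw [Fermat.Agent.R38.r38pl_ord_norm_global F ((H.pInf hq1).restrict E) hE f hf]
  have hneg : ∀ w : Place K F, w.ord H.X1 < 0 → (w.restrict E).ord x < 0 := by
    intro w hw
    have h2 := w.ord_restrict (F := E) x
    rw [hx] at h2
    by_contra hcon
    push Not at hcon
    have : 0 ≤ ((w.ramificationIndex E : ℕ) : ℤ) * (w.restrict E).ord x :=
      mul_nonneg (Int.natCast_nonneg _) hcon
    omega
  have hInfneg : (H.pInf hq1).ord H.X1 < 0 := by rw [H.ord_X1_pInf hq1]; norm_num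
  have hnotmem : H.pInf hq1 ∉ T := by
    intro h
    have h1 := (hT _).mp h
    have h2 := H.ord_s_of_zero_ne _ one_ne_zero h1
    have h3 := H.pInf_spec hq1
    omega
  have hfib : ((H.pInf hq1).restrict E).fiber F = insert (H.pInf hq1) T := by
    ext w
    rw [Place.mem_fiber, Finset.mem_insert, hT]
    constructor
    · intro hw
      apply (H.ord_X1_neg_iff hq1 w).mp
      have h2 := w.ord_restrict (F := E) x
      rw [hx, hw] at h2
      rw [h2]
      exact mul_neg_of_pos_of_neg (by exact_mod_cast w.ramificationIndex_pos (F := E))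
        (hneg _ hInfneg)
    · intro hw
      exact hp_pole_unique hgen _ _ (hneg w ((H.ord_X1_neg_iff hq1 w).mpr hw)) (hneg _ hInfneg)
  rw [hfib, Finset.sum_insert hnotmem]

/-- **(N3) ⟹ orders**: if the norm to `K(X₁)` is a constant times an `n`-th power. -/
theorem dvd_of_norm_X1 {x : E} (hE : IsFunctionFieldOver K E x) (hgen : K⟮x⟯ = ⊤)
    (hx : algebraMap E F x = H.X1) {f : F} (hf : f ≠ 0) (n : ℕ) (c : K) (u : E)
    (hN : Algebra.norm E f = algebraMap K E c * u ^ n) (T : Finset (Place K F))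
    (hT : ∀ v, v ∈ T ↔ 0 < v.ord (H.s - algebraMap K F 1)) :
    (n : ℤ) ∣ (H.pZero hq1).ord f ∧ (n : ℤ) ∣ (H.pInf hq1).ord f + ∑ v ∈ T, v.ord f := by
  have hN0 : Algebra.norm E f ≠ 0 := Algebra.norm_ne_zero_iff.mpr hf
  have hc : algebraMap K E c ≠ 0 := fun h => hN0 (by rw [hN, h, zero_mul])
  have hu : u ^ n ≠ 0 := fun h => hN0 (by rw [hN, h, mul_zero])
  have key : ∀ v : Place K E, (n : ℤ) ∣ v.ord (Algebra.norm E f) := by
    intro v
    rw [hN, v.ord_mul hc hu, Fermat.Agent.S24Res.ord_algebraMap, zero_add, hp_ord_pow]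
    exact Dvd.intro _ rfl
  refine ⟨?_, ?_⟩
  · rw [← H.ord_norm_X1_zero hq1 hE hgen hx hf]
    exact key _
  · rw [← H.ord_norm_X1_pole hq1 hE hgen hx hf T hT]
    exact key _

/-- **(N3') ⟹ orders**: if the norm to `K(X₂)` is a constant times an `n`-th power. -/
theorem dvd_of_norm_X2 {x : E} (hE : IsFunctionFieldOver K E x) (hgen : K⟮x⟯ = ⊤)
    (hx : algebraMap E F x = H.X2) {f : F} (hf : f ≠ 0) (n : ℕ) (c : K) (u : E)
    (hN : Algebra.norm E f = algebraMap K E c * u ^ n) (T : Finset (Place K F))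
    (hT : ∀ v, v ∈ T ↔ 0 < v.ord (H.s - algebraMap K F 1)) :
    (n : ℤ) ∣ (H.pInf hq1).ord f ∧ (n : ℤ) ∣ (H.pZero hq1).ord f + ∑ v ∈ T, v.ord f := by
  have h := (H.swap hq1).dvd_of_norm_X1 hq1 hE hgen hx hf n c u hN T
    (fun v => by rw [H.swap_mid_iff hq1]; exact hT v)
  rwa [H.swap_pZero hq1, H.swap_pInf hq1] at h

/-- **Step 2, orders at the ends**: from (N3) and (N3'), `n` divides the orders of `f` at
`pInf`, at `pZero`, and the sum of the orders over `s = 1`. -/
theorem dvd_of_norms {E₁ E₂ : Type*} [Field E₁] [Algebra K E₁] [Algebra E₁ F]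
    [IsScalarTower K E₁ F] [FiniteDimensional E₁ F] [Algebra.IsSeparable E₁ F]
    [Field E₂] [Algebra K E₂] [Algebra E₂ F]
    [IsScalarTower K E₂ F] [FiniteDimensional E₂ F] [Algebra.IsSeparable E₂ F]
    {x₁ : E₁} (hE₁ : IsFunctionFieldOver K E₁ x₁) (hgen₁ : K⟮x₁⟯ = ⊤)
    (hx₁ : algebraMap E₁ F x₁ = H.X1)
    {x₂ : E₂} (hE₂ : IsFunctionFieldOver K E₂ x₂) (hgen₂ : K⟮x₂⟯ = ⊤)
    (hx₂ : algebraMap E₂ F x₂ = H.X2)
    {f : F} (hf : f ≠ 0) (n : ℕ) (c₁ c₂ : K) (u₁ : E₁) (u₂ : E₂)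
    (hN₁ : Algebra.norm E₁ f = algebraMap K E₁ c₁ * u₁ ^ n)
    (hN₂ : Algebra.norm E₂ f = algebraMap K E₂ c₂ * u₂ ^ n) (T : Finset (Place K F))
    (hT : ∀ v, v ∈ T ↔ 0 < v.ord (H.s - algebraMap K F 1)) :
    (n : ℤ) ∣ (H.pInf hq1).ord f ∧ (n : ℤ) ∣ (H.pZero hq1).ord f ∧
      (n : ℤ) ∣ ∑ v ∈ T, v.ord f := by
  obtain ⟨a1, a2⟩ := H.dvd_of_norm_X1 hq1 hE₁ hgen₁ hx₁ hf n c₁ u₁ hN₁ T hT
  obtain ⟨b1, b2⟩ := H.dvd_of_norm_X2 hq1 hE₂ hgen₂ hx₂ hf n c₂ u₂ hN₂ T hT
  refine ⟨b1, a1, ?_⟩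
  have := (Int.dvd_add_right b1).mp a2
  exact this

end Norm

end HPCurve

end Fermat.Agent.HP
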