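/-
Cluster G (S36), Step 3, seat HP-NORMVAL (helper31): VALUES OF NORMS at the ends of `H_P`.

`H_P : X₁ X₂ (X₁ - X₂)^(q-1) = c` over an algebraically closed field `K`, `F = K(H_P)`.
For `h ∈ F` with values at the ends, the norms `N_{F/K(X₁)}(h)`, `N_{F/K(X₂)}(h)`, seen in `F`:

* `valAt_norm_X1_pZero` : `N_{F/K(X₁)}(h)(p_0) = h(p_0)^q`                 (`X₁ = 0`: only `p_0`);
* `valAt_norm_X1_poles` : `N_{F/K(X₁)}(h)(w) = h(p_∞) ∏_{mid v} h(v)^{e_v}` at `w = p_∞` and at
                          every mid end `w` (`X₁ = ∞`: `p_∞` and the mid ends), `e_v = -ord_v X₁`;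
* `valAt_norm_X2_pInf`, `valAt_norm_X2_poles` : the same for `X₂` (`p_0 ↔ p_∞`).
* `mid_exp_even`, `mid_exp_odd` : `e_v = q - 1` (`q` even), `e_v = (q + 1) / 2 - 1` (`q` odd).

No separability is used (general VAL-NORM, `S36/Norm/ValNormX.lean`).
-/
import Mathlib
import Fermat.Agent.S36.Norm.ValNormX
import Fermat.Agent.Lib.HP.Deg

set_option autoImplicit false
set_option linter.unusedSectionVars false
set_option linter.unusedVariables false
set_option linter.style.haveILetI false

noncomputable section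

open IntermediateField AlgebraicCurve

namespace Fermat.Agent.HP

open Fermat.Agent.RR Fermat.Agent.S36
open Fermat.Agent.BadRed (ValAt)

variable {K F : Type*} [Field K] [Field F] [Algebra K F] {q : ℕ}

namespace HPCurve

variable (H : HPCurve K F q) [IsAlgClosed K] (hq1 : ((q + 1 : ℕ) : K) ≠ 0)

include hq1 in
/-- the end `p_∞` is not a mid end. -/
theorem pInf_not_mid : ¬ 0 < (H.pInf hq1).ord (H.s - algebraMap K F 1) := by
  intro h
  have h1 := H.ord_s_of_zero_ne (H.pInf hq1) one_ne_zero h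
  have h2 := H.pInf_spec hq1
  omega

include hq1 in
/-- the end `p_0` is not a mid end. -/
theorem pZero_not_mid : ¬ 0 < (H.pZero hq1).ord (H.s - algebraMap K F 1) := by
  intro h
  have h1 := H.ord_s_of_zero_ne (H.pZero hq1) one_ne_zero h
  have h2 := H.pZero_spec hq1
  omega

include hq1 in
/-- **the value of `N_{F/K(X₁)}(h)` at `p_0`** (the only zero of `X₁`, of order `q`). -/
theorem valAt_norm_X1_pZero (h : F) (c : K) (hc : ValAt (H.pZero hq1) h c) :
    ValAt (H.pZero hq1) (algebraMap K⟮H.X1⟯ F (Algebra.norm K⟮H.X1⟯ h)) (c ^ q) := by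
  classical
  haveI := H.finiteDimensional_X1
  have key := vnx_valAt_norm_zeros (H.isRRField hq1) H.transc {H.pZero hq1}
    (fun Q => by rw [Finset.mem_singleton, H.ord_X1_pos_iff hq1]) h (fun _ => c)
    (fun Q hQ => by rw [Finset.mem_singleton] at hQ; rw [hQ]; exact hc)
    (H.pZero hq1) (Finset.mem_singleton_self _)
  rw [Finset.prod_singleton, H.ord_X1_pZero hq1, Int.toNat_natCast] at key
  exact key

include hq1 in
/-- **the value of `N_{F/K(X₁)}(h)` at the poles of `X₁`** (`p_∞`, simple, and the mid ends). -/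
theorem valAt_norm_X1_poles (T : Finset (Place K F))
    (hT : ∀ v, v ∈ T ↔ 0 < v.ord (H.s - algebraMap K F 1))
    (h : F) (c : Place K F → K) (hInf : ValAt (H.pInf hq1) h (c (H.pInf hq1)))
    (hmid : ∀ v ∈ T, ValAt v h (c v)) (w : Place K F) (hw : w = H.pInf hq1 ∨ w ∈ T) :
    ValAt w (algebraMap K⟮H.X1⟯ F (Algebra.norm K⟮H.X1⟯ h))
      (c (H.pInf hq1) * ∏ v ∈ T, c v ^ (-(v.ord H.X1)).toNat) := by
  classical
  haveI := H.finiteDimensional_X1
  have hnot : H.pInf hq1 ∉ T := fun hmem => H.pInf_not_mid hq1 ((hT _).mp hmem)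
  have key := vnx_valAt_norm_poles (H.isRRField hq1) H.transc (insert (H.pInf hq1) T)
    (fun Q => by rw [Finset.mem_insert, H.ord_X1_neg_iff hq1, hT]) h c
    (fun Q hQ => by
      rw [Finset.mem_insert] at hQ
      rcases hQ with hQ | hQ
      · rw [hQ]; exact hInf
      · exact hmid Q hQ)
    w (by rw [Finset.mem_insert]; exact hw)
  rw [Finset.prod_insert hnot, H.ord_X1_pInf hq1] at key
  have e : (-(-1 : ℤ)).toNat = 1 := by decide
  rw [e, pow_one] at key
  exact key

include hq1 in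
/-- **the value of `N_{F/K(X₂)}(h)` at `p_∞`** (the only zero of `X₂`, of order `q`). -/
theorem valAt_norm_X2_pInf (h : F) (c : K) (hc : ValAt (H.pInf hq1) h c) :
    ValAt (H.pInf hq1) (algebraMap K⟮H.X2⟯ F (Algebra.norm K⟮H.X2⟯ h)) (c ^ q) := by
  classical
  haveI := H.finiteDimensional_X2 hq1
  have key := vnx_valAt_norm_zeros (H.isRRField hq1) (H.X2_transcendental hq1) {H.pInf hq1}
    (fun Q => by rw [Finset.mem_singleton, H.ord_X2_pos_iff hq1]) h (fun _ => c)
    (fun Q hQ => by rw [Finset.mem_singleton] at hQ; rw [hQ]; exact hc)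
    (H.pInf hq1) (Finset.mem_singleton_self _)
  rw [Finset.prod_singleton, H.ord_X2_pInf hq1, Int.toNat_natCast] at key
  exact key

include hq1 in
/-- **the value of `N_{F/K(X₂)}(h)` at the poles of `X₂`** (`p_0`, simple, and the mid ends). -/
theorem valAt_norm_X2_poles (T : Finset (Place K F))
    (hT : ∀ v, v ∈ T ↔ 0 < v.ord (H.s - algebraMap K F 1))
    (h : F) (c : Place K F → K) (hZero : ValAt (H.pZero hq1) h (c (H.pZero hq1)))
    (hmid : ∀ v ∈ T, ValAt v h (c v)) (w : Place K F) (hw : w = H.pZero hq1 ∨ w ∈ T) :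
    ValAt w (algebraMap K⟮H.X2⟯ F (Algebra.norm K⟮H.X2⟯ h))
      (c (H.pZero hq1) * ∏ v ∈ T, c v ^ (-(v.ord H.X1)).toNat) := by
  classical
  haveI := H.finiteDimensional_X2 hq1
  have hnot : H.pZero hq1 ∉ T := fun hmem => H.pZero_not_mid hq1 ((hT _).mp hmem)
  have key := vnx_valAt_norm_poles (H.isRRField hq1) (H.X2_transcendental hq1)
    (insert (H.pZero hq1) T)
    (fun Q => by rw [Finset.mem_insert, H.ord_X2_neg_iff hq1, hT]) h c
    (fun Q hQ => by
      rw [Finset.mem_insert] at hQ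
      rcases hQ with hQ | hQ
      · rw [hQ]; exact hZero
      · exact hmid Q hQ)
    w (by rw [Finset.mem_insert]; exact hw)
  rw [Finset.prod_insert hnot, H.ord_X2_pZero hq1] at key
  have e : (-(-1 : ℤ)).toNat = 1 := by decide
  rw [e, pow_one] at key
  have e2 : ∏ v ∈ T, c v ^ (-(v.ord H.X2)).toNat = ∏ v ∈ T, c v ^ (-(v.ord H.X1)).toNat :=
    Finset.prod_congr rfl fun v hv => by rw [H.ord_X2_mid v ((hT v).mp hv)]
  rw [e2] at key
  exact key

include hq1 in
/-- the exponent at the mid end, `q` even. -/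
theorem mid_exp_even (hq : Even q) (v : Place K F)
    (hv : 0 < v.ord (H.s - algebraMap K F 1)) : (-(v.ord H.X1)).toNat = q - 1 := by
  rw [H.ord_X1_mid_even hq1 hq v hv, neg_neg]
  have := H.q_two
  omega

include hq1 in
/-- the exponent at the mid ends, `q` odd. -/
theorem mid_exp_odd (hq : Odd q) (h2 : (2 : K) ≠ 0) (v : Place K F)
    (hv : 0 < v.ord (H.s - algebraMap K F 1)) : (-(v.ord H.X1)).toNat = H.m - 1 := by
  rw [H.ord_X1_mid_odd hq1 hq h2 v hv, neg_neg]
  have := H.m_pos hq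
  omega

end HPCurve

end Fermat.Agent.HP
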