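/-
Cluster G (S36), Step 3, seat HP-NORMVAL (helper31), part 2: VALUES OF NORMS at the ends of
`H_P`, over an ABSTRACT rational base field `E = K(x)` (conventions of `Lib/HP/NormOrd.lean`:
`hgen : K⟮x⟯ = ⊤`, `hx : algebraMap E F x = H.X1` resp. `H.X2`).  No separability needed.

* `valAt_normE_X1_pZero` : `N_{F/E}(h)(p_0) = h(p_0)^q`                       (`x ↦ X₁`);
* `valAt_normE_X1_poles` : `N_{F/E}(h)(w) = h(p_∞) ∏_{mid v} h(v)^{e_v}`  at `w = p_∞` and at the
                           mid ends `w`                                      (`x ↦ X₁`);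
* `valAt_normE_X2_pInf`, `valAt_normE_X2_poles` : the same for `x ↦ X₂` (`p_0 ↔ p_∞`).
-/
import Mathlib
import Fermat.Agent.S36.Norm.ValNormE
import Fermat.Agent.Lib.HP.NormVal

set_option autoImplicit false
set_option linter.unusedSectionVars false
set_option linter.unusedVariables false
set_option linter.style.haveILetI false

noncomputable section

open IntermediateField AlgebraicCurve

namespace Fermat.Agent.HP

open Fermat.Agent.RR Fermat.Agent.S36
open Fermat.Agent.BadRed (ValAt)

variable {K F : Type*} [Field K] [Field F] [Algebra K F] {q : ℕ}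

namespace HPCurve

variable (H : HPCurve K F q) [IsAlgClosed K] (hq1 : ((q + 1 : ℕ) : K) ≠ 0)
  {E : Type*} [Field E] [Algebra K E] [Algebra E F] [IsScalarTower K E F] [FiniteDimensional E F]

/-- an element of `E` mapping to a transcendental element is transcendental. -/
theorem transcendental_of_map {x : E} {y : F} (hx : algebraMap E F x = y)
    (hy : Transcendental K y) : Transcendental K x := by
  intro h
  apply hy
  rw [← hx]
  exact (isAlgebraic_algHom_iff (IsScalarTower.toAlgHom K E F)
    (IsScalarTower.toAlgHom K E F).toRingHom.injective).mpr h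

include hq1 in
/-- **the value of `N_{F/E}(h)` at `p_0`**, `E = K(x)`, `x ↦ X₁`. -/
theorem valAt_normE_X1_pZero {x : E} (hgen : K⟮x⟯ = ⊤) (hx : algebraMap E F x = H.X1)
    (h : F) (c : K) (hc : ValAt (H.pZero hq1) h c) :
    ValAt (H.pZero hq1) (algebraMap E F (Algebra.norm E h)) (c ^ q) := by
  classical
  have key := vne_valAt_norm_zeros (H.isRRField hq1) (transcendental_of_map hx H.transc) hgen
    {H.pZero hq1} (fun Q => by rw [Finset.mem_singleton, hx, H.ord_X1_pos_iff hq1]) h
    (fun _ => c) (fun Q hQ => by rw [Finset.mem_singleton] at hQ; rw [hQ]; exact hc)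
    (H.pZero hq1) (Finset.mem_singleton_self _)
  rw [Finset.prod_singleton, hx, H.ord_X1_pZero hq1, Int.toNat_natCast] at key
  exact key

include hq1 in
/-- **the value of `N_{F/E}(h)` at the poles of `X₁`**, `E = K(x)`, `x ↦ X₁`. -/
theorem valAt_normE_X1_poles {x : E} (hgen : K⟮x⟯ = ⊤) (hx : algebraMap E F x = H.X1)
    (T : Finset (Place K F)) (hT : ∀ v, v ∈ T ↔ 0 < v.ord (H.s - algebraMap K F 1))
    (h : F) (c : Place K F → K) (hInf : ValAt (H.pInf hq1) h (c (H.pInf hq1)))
    (hmid : ∀ v ∈ T, ValAt v h (c v)) (w : Place K F) (hw : w = H.pInf hq1 ∨ w ∈ T) :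
    ValAt w (algebraMap E F (Algebra.norm E h))
      (c (H.pInf hq1) * ∏ v ∈ T, c v ^ (-(v.ord H.X1)).toNat) := by
  classical
  have hnot : H.pInf hq1 ∉ T := fun hmem => H.pInf_not_mid hq1 ((hT _).mp hmem)
  have key := vne_valAt_norm_poles (H.isRRField hq1) (transcendental_of_map hx H.transc) hgen
    (insert (H.pInf hq1) T)
    (fun Q => by rw [Finset.mem_insert, hx, H.ord_X1_neg_iff hq1, hT]) h c
    (fun Q hQ => by
      rw [Finset.mem_insert] at hQ
      rcases hQ with hQ | hQ
      · rw [hQ]; exact hInf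
      · exact hmid Q hQ)
    w (by rw [Finset.mem_insert]; exact hw)
  rw [Finset.prod_insert hnot, hx, H.ord_X1_pInf hq1] at key
  have e : (-(-1 : ℤ)).toNat = 1 := by decide
  rw [e, pow_one] at key
  exact key

include hq1 in
/-- **the value of `N_{F/E}(h)` at `p_∞`**, `E = K(x)`, `x ↦ X₂`. -/
theorem valAt_normE_X2_pInf {x : E} (hgen : K⟮x⟯ = ⊤) (hx : algebraMap E F x = H.X2)
    (h : F) (c : K) (hc : ValAt (H.pInf hq1) h c) :
    ValAt (H.pInf hq1) (algebraMap E F (Algebra.norm E h)) (c ^ q) := by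
  classical
  have key := vne_valAt_norm_zeros (H.isRRField hq1)
    (transcendental_of_map hx (H.X2_transcendental hq1)) hgen
    {H.pInf hq1} (fun Q => by rw [Finset.mem_singleton, hx, H.ord_X2_pos_iff hq1]) h
    (fun _ => c) (fun Q hQ => by rw [Finset.mem_singleton] at hQ; rw [hQ]; exact hc)
    (H.pInf hq1) (Finset.mem_singleton_self _)
  rw [Finset.prod_singleton, hx, H.ord_X2_pInf hq1, Int.toNat_natCast] at key
  exact key

include hq1 in
/-- **the value of `N_{F/E}(h)` at the poles of `X₂`**, `E = K(x)`, `x ↦ X₂`. -/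
theorem valAt_normE_X2_poles {x : E} (hgen : K⟮x⟯ = ⊤) (hx : algebraMap E F x = H.X2)
    (T : Finset (Place K F)) (hT : ∀ v, v ∈ T ↔ 0 < v.ord (H.s - algebraMap K F 1))
    (h : F) (c : Place K F → K) (hZero : ValAt (H.pZero hq1) h (c (H.pZero hq1)))
    (hmid : ∀ v ∈ T, ValAt v h (c v)) (w : Place K F) (hw : w = H.pZero hq1 ∨ w ∈ T) :
    ValAt w (algebraMap E F (Algebra.norm E h))
      (c (H.pZero hq1) * ∏ v ∈ T, c v ^ (-(v.ord H.X1)).toNat) := by
  classical
  have hnot : H.pZero hq1 ∉ T := fun hmem => H.pZero_not_mid hq1 ((hT _).mp hmem)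
  have key := vne_valAt_norm_poles (H.isRRField hq1)
    (transcendental_of_map hx (H.X2_transcendental hq1)) hgen
    (insert (H.pZero hq1) T)
    (fun Q => by rw [Finset.mem_insert, hx, H.ord_X2_neg_iff hq1, hT]) h c
    (fun Q hQ => by
      rw [Finset.mem_insert] at hQ
      rcases hQ with hQ | hQ
      · rw [hQ]; exact hZero
      · exact hmid Q hQ)
    w (by rw [Finset.mem_insert]; exact hw)
  rw [Finset.prod_insert hnot, hx, H.ord_X2_pZero hq1] at key
  have e : (-(-1 : ℤ)).toNat = 1 := by decide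
  rw [e, pow_one] at key
  have e2 : ∏ v ∈ T, c v ^ (-(v.ord H.X2)).toNat =
      ∏ v ∈ T, c v ^ (-(v.ord H.X1)).toNat :=
    Finset.prod_congr rfl fun v hv => by rw [H.ord_X2_mid v ((hT v).mp hv)]
  rw [e2] at key
  exact key

end HPCurve

end Fermat.Agent.HP
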