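import Mathlib

set_option autoImplicit false
set_option linter.unusedSectionVars false
set_option linter.unusedVariables false
set_option linter.style.haveILetI false

/-!
# The polynomial `X^(q+1) - y X + c` in characteristic `q` (WP-RES, algebra)

The reduction of the (rescaled) Kronecker polynomial `Ψ_t(ϖ X, ϖ^q Y) / ϖ^(q+1)` on the circle
valuation is `f = X^(q+1) - y X + c`.  In characteristic `q`:

* `hp_poly_separable` : `f` is separable (`c ≠ 0`);
* `hp_root_ne` : if `(X - W)(X - Z) ∣ f` then `W ≠ Z`;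
* `hp_Y_of_root` : a root `W` of `f` is `≠ 0` and `y = W^q + c / W`;
* `hp_rel_of_roots` : two DISTINCT roots `W, Z` of `f` satisfy `W Z (W - Z)^(q-1) = c`
  (the equation of `H_P`).
-/

noncomputable section

open Polynomial

namespace Fermat.Agent.HP

variable {E : Type*} [Field E] {q : ℕ}

/-- the polynomial `X^(q+1) - y X + c`. -/
def hpPoly (q : ℕ) (y c : E) : E[X] := X ^ (q + 1) - C y * X + C c

theorem hpPoly_eval (y c W : E) : (hpPoly q y c).eval W = W ^ (q + 1) - y * W + c := by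
  simp [hpPoly]

theorem hpPoly_derivative (hq0 : ((q : ℕ) : E) = 0) (y c : E) :
    derivative (hpPoly q y c) = X ^ q - C y := by
  unfold hpPoly
  simp only [derivative_add, derivative_sub, derivative_X_pow, derivative_mul, derivative_C,
    derivative_X, zero_mul, mul_one, zero_add, add_zero, Nat.add_sub_cancel]
  have h1 : ((q + 1 : ℕ) : E) = 1 := by rw [Nat.cast_add, hq0, zero_add, Nat.cast_one]
  simp only [h1, map_one, one_mul]

/-- `X^(q+1) - y X + c` is separable in characteristic `q` (`c ≠ 0`). -/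
theorem hp_poly_separable (hq0 : ((q : ℕ) : E) = 0) (y c : E) (hc : c ≠ 0) :
    (hpPoly q y c).Separable := by
  rw [Polynomial.separable_def, hpPoly_derivative hq0]
  -- `f - X * f' = c`
  refine ⟨C c⁻¹, -(C c⁻¹ * X), ?_⟩
  unfold hpPoly
  have h : C c⁻¹ * C c = (1 : E[X]) := by rw [← C_mul, inv_mul_cancel₀ hc, C_1]
  linear_combination h

/-- no double root. -/
theorem hp_root_ne (hq0 : ((q : ℕ) : E) = 0) (y c : E) (hc : c ≠ 0) (W Z : E)
    (h : (X - C W) * (X - C Z) ∣ hpPoly q y c) : W ≠ Z := by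
  intro hWZ
  subst hWZ
  have hsep := hp_poly_separable hq0 y c hc
  have h1 : ((X - C W) * (X - C W)).Separable := hsep.of_dvd h
  have h2 : IsUnit (X - C W) := h1.squarefree (X - C W) dvd_rfl
  exact (not_isUnit_X_sub_C W) h2

/-- a root is non-zero. -/
theorem hp_root_ne_zero (y c : E) (hc : c ≠ 0) {W : E}
    (hW : W ^ (q + 1) - y * W + c = 0) : W ≠ 0 := by
  intro h
  rw [h] at hW
  simp at hW
  exact hc hW

/-- at a root: `y = W^q + c / W`. -/
theorem hp_Y_of_root (y c : E) (hc : c ≠ 0) {W : E}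
    (hW : W ^ (q + 1) - y * W + c = 0) : y = W ^ q + c / W := by
  have hne := hp_root_ne_zero y c hc hW
  rw [eq_comm, ← sub_eq_zero]
  have h1 : W ^ q + c / W - y = (W ^ (q + 1) - y * W + c) / W := by
    field_simp
    ring
  rw [h1, hW, zero_div]

/-- conversely. -/
theorem hp_root_of_Y (y c : E) {W : E} (hne : W ≠ 0) (hy : y = W ^ q + c / W) :
    W ^ (q + 1) - y * W + c = 0 := by
  rw [hy]
  field_simp
  ring

/-- **the equation of `H_P`** from `W^q + c/W = Z^q + c/Z`, `W ≠ Z` (characteristic `q`). -/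
theorem hp_rel_of_Y_eq (hq : q.Prime) [CharP E q] (c : E) {W Z : E} (hW : W ≠ 0) (hZ : Z ≠ 0)
    (hWZ : W ≠ Z) (h : W ^ q + c / W = Z ^ q + c / Z) :
    W * Z * (W - Z) ^ (q - 1) = c := by
  haveI : Fact q.Prime := ⟨hq⟩
  have h1 : (W - Z) ^ q = W ^ q - Z ^ q := sub_pow_char W Z
  have h2 : (W - Z) ^ q = (W - Z) * (W - Z) ^ (q - 1) := by
    rw [← pow_succ']
    congr 1
    have := hq.two_le
    omega
  have h3 : W ^ q - Z ^ q = c / Z - c / W := by linear_combination h
  have hsub : W - Z ≠ 0 := sub_ne_zero.mpr hWZ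
  have h4 : (W - Z) * (W - Z) ^ (q - 1) = c / Z - c / W := by rw [← h2, h1, h3]
  have h5 : c / Z - c / W = (W - Z) * (c / (W * Z)) := by
    field_simp
  rw [h5] at h4
  have h6 := mul_left_cancel₀ hsub h4
  rw [h6]
  field_simp

/-- **two distinct roots of `X^(q+1) - y X + c` satisfy the equation of `H_P`.** -/
theorem hp_rel_of_roots (hq : q.Prime) [CharP E q] (y c : E) (hc : c ≠ 0) {W Z : E}
    (hW : W ^ (q + 1) - y * W + c = 0) (hZ : Z ^ (q + 1) - y * Z + c = 0) (hWZ : W ≠ Z) :
    W * Z * (W - Z) ^ (q - 1) = c :=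
  hp_rel_of_Y_eq hq c (hp_root_ne_zero y c hc hW) (hp_root_ne_zero y c hc hZ) hWZ
    ((hp_Y_of_root y c hc hW).symm.trans (hp_Y_of_root y c hc hZ))

end Fermat.Agent.HP
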