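import Mathlib
import Fermat.Agent.Lib.HP.Sep
import Fermat.Agent.Lib.HP.YFun

set_option autoImplicit false
set_option linter.unusedSectionVars false
set_option linter.unusedVariables false
set_option linter.style.haveILetI false

/-!
# The curve `H_P` over ABSTRACT copies of its rational subfields

`E₁` a field with `K → E₁ → F`, `E₁ = K(x₁)`, `x₁ ↦ X₁` (in the application: the residue field of
the circle valuation).  Then `x₁` is transcendental, `F / E₁` is finite of degree `q` and (in
characteristic `q`) separable; the same for `X₂`.  These are the instance hypotheses of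
`HPCurve.dvd_of_norms`, `HPCurve.pow_eq_of_norms`, `isPowAt_hor`.
-/

noncomputable section

open IntermediateField AlgebraicCurve Polynomial

namespace Fermat.Agent.HP

open Fermat.Agent.RR Fermat.Agent.RRHur Fermat.Agent.S24Diff

variable {K F : Type*} [Field K] [Field F] [Algebra K F] {q : ℕ}

section Abstract

variable {E₀ : Type*} [Field E₀] [Algebra K E₀] [Algebra E₀ F] [IsScalarTower K E₀ F]

theorem hp_fieldRange_of_gen {y : E₀} (hgen : K⟮y⟯ = ⊤) :
    (IsScalarTower.toAlgHom K E₀ F).fieldRange = K⟮algebraMap E₀ F y⟯ := by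
  rw [AlgHom.fieldRange_eq_map, ← hgen, IntermediateField.adjoin_map, Set.image_singleton]
  rfl

/-- the isomorphism of an abstract copy `E₀ = K(y)` with the subfield `K(algebraMap y)`. -/
def hpGenEquiv {y : E₀} (hgen : K⟮y⟯ = ⊤) : E₀ ≃ₐ[K] K⟮algebraMap E₀ F y⟯ :=
  (AlgEquiv.ofInjectiveField (IsScalarTower.toAlgHom K E₀ F)).trans
    (IntermediateField.equivOfEq (hp_fieldRange_of_gen hgen))

theorem hpGenEquiv_apply {y : E₀} (hgen : K⟮y⟯ = ⊤) (x : E₀) :
    ((hpGenEquiv (F := F) hgen x : K⟮algebraMap E₀ F y⟯) : F) = algebraMap E₀ F x := rfl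

theorem hpGenEquiv_comp_symm {y : E₀} (hgen : K⟮y⟯ = ⊤) :
    (algebraMap E₀ F).comp (hpGenEquiv (F := F) hgen).symm.toRingEquiv.toRingHom =
      (RingEquiv.refl F).toRingHom.comp (algebraMap K⟮algebraMap E₀ F y⟯ F) := by
  ext x
  obtain ⟨z, rfl⟩ := (hpGenEquiv (F := F) hgen).surjective x
  show algebraMap E₀ F ((hpGenEquiv (F := F) hgen).symm (hpGenEquiv (F := F) hgen z)) =
    ((hpGenEquiv (F := F) hgen z : K⟮algebraMap E₀ F y⟯) : F)
  rw [AlgEquiv.symm_apply_apply, hpGenEquiv_apply]

theorem hp_isSeparable_of_gen {y : E₀} (hgen : K⟮y⟯ = ⊤)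
    [Algebra.IsSeparable K⟮algebraMap E₀ F y⟯ F] : Algebra.IsSeparable E₀ F :=
  Algebra.IsSeparable.of_equiv_equiv (hpGenEquiv (F := F) hgen).symm.toRingEquiv
    (RingEquiv.refl F) (hpGenEquiv_comp_symm hgen)

theorem hp_finiteDimensional_of_gen {y : E₀} (hgen : K⟮y⟯ = ⊤)
    [FiniteDimensional K⟮algebraMap E₀ F y⟯ F] : FiniteDimensional E₀ F :=
  Module.Finite.of_equiv_equiv (hpGenEquiv (F := F) hgen).symm.toRingEquiv
    (RingEquiv.refl F) (hpGenEquiv_comp_symm hgen)

theorem hp_transcendental_of_gen {y : E₀} (hy : Transcendental K (algebraMap E₀ F y)) :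
    Transcendental K y :=
  (transcendental_algebraMap_iff (R := K) (algebraMap E₀ F).injective).mp hy

theorem hp_isFunctionFieldOver_of_gen {y : E₀} (hgen : K⟮y⟯ = ⊤)
    (hy : Transcendental K (algebraMap E₀ F y)) : IsFunctionFieldOver K E₀ y := by
  refine ⟨hp_transcendental_of_gen hy, ?_⟩
  rw [hgen]
  exact Module.finite_of_finrank_pos (by rw [IntermediateField.finrank_top]; exact one_pos)

end Abstract

namespace HPCurve

variable (H : HPCurve K F q) [IsAlgClosed K] (hq1 : ((q + 1 : ℕ) : K) ≠ 0)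

section X1

variable {E₁ : Type*} [Field E₁] [Algebra K E₁] [Algebra E₁ F] [IsScalarTower K E₁ F]
  {x : E₁} (hgen : K⟮x⟯ = ⊤) (hx : algebraMap E₁ F x = H.X1)

include hgen hx

theorem isFunctionFieldOver_of_gen_X1 : IsFunctionFieldOver K E₁ x :=
  hp_isFunctionFieldOver_of_gen (F := F) hgen (by rw [hx]; exact H.transc)

theorem finiteDimensional_of_gen_X1 : FiniteDimensional E₁ F := by
  haveI : FiniteDimensional K⟮algebraMap E₁ F x⟯ F := by
    rw [hx]; exact H.finiteDimensional_X1
  exact hp_finiteDimensional_of_gen hgen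

theorem isSeparable_of_gen_X1 (hq0 : ((q : ℕ) : K) = 0) : Algebra.IsSeparable E₁ F := by
  haveI : Algebra.IsSeparable K⟮algebraMap E₁ F x⟯ F := by
    rw [hx]; exact H.isSeparable_X1 hq0
  exact hp_isSeparable_of_gen hgen

end X1

section X2

variable {E₂ : Type*} [Field E₂] [Algebra K E₂] [Algebra E₂ F] [IsScalarTower K E₂ F]
  {x : E₂} (hgen : K⟮x⟯ = ⊤) (hx : algebraMap E₂ F x = H.X2)

include hgen hx hq1

theorem isFunctionFieldOver_of_gen_X2 : IsFunctionFieldOver K E₂ x :=
  hp_isFunctionFieldOver_of_gen (F := F) hgen (by rw [hx]; exact H.X2_transcendental hq1)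

theorem finiteDimensional_of_gen_X2 : FiniteDimensional E₂ F := by
  haveI : FiniteDimensional K⟮algebraMap E₂ F x⟯ F := by
    rw [hx]; exact H.finiteDimensional_X2 hq1
  exact hp_finiteDimensional_of_gen hgen

theorem isSeparable_of_gen_X2 (hq0 : ((q : ℕ) : K) = 0) : Algebra.IsSeparable E₂ F := by
  haveI : Algebra.IsSeparable K⟮algebraMap E₂ F x⟯ F := by
    rw [hx]; exact H.isSeparable_X2 hq1 hq0
  exact hp_isSeparable_of_gen hgen

end X2

end HPCurve

end Fermat.Agent.HP
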