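import Mathlib
import Fermat.Agent.Lib.HP.NormOrd
import Fermat.Agent.Lib.HP.Gal
import Fermat.Agent.S36.Cover.InvFun

set_option autoImplicit false
set_option linter.unusedSectionVars false
set_option linter.style.haveILetI false

/-!
# Step 2 on the explicit curve `H_P : X1 * X2 * (X1 - X2)^(q-1) = c`

`G = H.galK = Gal(F / K(s))`, `s = X2 / X1`, `|G| = q + 1`.

* `pow_eq_of_inv` : if `σ f = c_σ * u_σ ^ n * f` for all `σ ∈ G`, `n ∣ ord_v f` at all places
  `v` which are neither ends nor lie over `s = 1`, `n ∣ ord_{pInf} f` and `n` divides the sum of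
  the orders of `f` over the fibre `s = 1`, then `f ^ (q + 1) = c * u ^ n`.
* `pow_eq_of_norms` : the same, the last two hypotheses being replaced by: the norms of `f`
  to `K(X1)` and to `K(X2)` are constants times `n`-th powers.
-/

noncomputable section

open AlgebraicCurve IntermediateField Polynomial

namespace Fermat.Agent.HP

open Fermat.Agent.RR Fermat.Agent.GoodRedSmall Fermat.Agent.RRHur Fermat.Agent.S24Diff

variable {K F : Type*} [Field K] [Field F] [Algebra K F] {q : ℕ}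

namespace HPCurve

variable (H : HPCurve K F q) [IsAlgClosed K] (hq1 : ((q + 1 : ℕ) : K) ≠ 0)

include hq1 in
/-- **Step 2 on `H_P`, order form.** -/
theorem pow_eq_of_inv (n : ℕ) {f : F} (hf : f ≠ 0)
    (hinv : ∀ σ ∈ H.galK, ∃ (c : K) (u : F), σ f = algebraMap K F c * u ^ n * f)
    (hoff : ∀ v : Place K F, v.ord H.s = 0 → v.ord (H.s - algebraMap K F 1) = 0 →
      (n : ℤ) ∣ v.ord f)
    (hInf : (n : ℤ) ∣ (H.pInf hq1).ord f)
    (hmid : ∀ T : Finset (Place K F), (∀ v, v ∈ T ↔ 0 < v.ord (H.s - algebraMap K F 1)) →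
      (n : ℤ) ∣ ∑ v ∈ T, v.ord f) :
    ∃ (c : K) (u : F), c ≠ 0 ∧ u ≠ 0 ∧ f ^ (q + 1) = algebraMap K F c * u ^ n := by
  classical
  haveI := H.finite_galK hq1
  letI : Fintype H.galK := Fintype.ofFinite _
  have hcard : Fintype.card H.galK = q + 1 := by
    rw [← Nat.card_eq_fintype_card]
    exact H.card_galK hq1
  have key := Fermat.Agent.S36Cover.ik_pow_card_eq H.galK (H.isRRField hq1) H.s_transcendental
    (fun σ hσ => hσ) (fun y hy => (H.mem_iff_fixed_galK hq1 y).mpr hy) n hf hinv ?_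
  · rw [hcard] at key
    exact key
  · intro a T hT
    by_cases ha0 : a = 0
    · subst ha0
      have hTeq : T = {H.pInf hq1} := by
        ext v
        rw [hT, map_zero, sub_zero, Finset.mem_singleton]
        exact H.ord_s_pos_iff hq1 v
      rw [hTeq, Finset.sum_singleton]
      exact hInf
    by_cases ha1 : a = 1
    · subst ha1
      exact hmid T hT
    · refine Finset.dvd_sum fun v hv => ?_
      have hv' := (hT v).mp hv
      refine hoff v (H.ord_s_of_zero_ne v ha0 hv') ?_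
      exact ord_sub_const_eq_zero v (c := a) (c' := 1) ha1 hv'

include hq1 in
/-- **Step 2 on `H_P`, norm form.**  `E₁ = K(x₁)`, `E₂ = K(x₂)` are the two rational subfields
(`x₁ ↦ X1`, `x₂ ↦ X2`), `F / Eᵢ` separable. -/
theorem pow_eq_of_norms {E₁ E₂ : Type*} [Field E₁] [Algebra K E₁] [Algebra E₁ F]
    [IsScalarTower K E₁ F] [FiniteDimensional E₁ F] [Algebra.IsSeparable E₁ F]
    [Field E₂] [Algebra K E₂] [Algebra E₂ F]
    [IsScalarTower K E₂ F] [FiniteDimensional E₂ F] [Algebra.IsSeparable E₂ F]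
    {x₁ : E₁} (hE₁ : IsFunctionFieldOver K E₁ x₁) (hgen₁ : K⟮x₁⟯ = ⊤)
    (hx₁ : algebraMap E₁ F x₁ = H.X1)
    {x₂ : E₂} (hE₂ : IsFunctionFieldOver K E₂ x₂) (hgen₂ : K⟮x₂⟯ = ⊤)
    (hx₂ : algebraMap E₂ F x₂ = H.X2)
    (n : ℕ) {f : F} (hf : f ≠ 0)
    (hinv : ∀ σ ∈ H.galK, ∃ (c : K) (u : F), σ f = algebraMap K F c * u ^ n * f)
    (hoff : ∀ v : Place K F, v.ord H.s = 0 → v.ord (H.s - algebraMap K F 1) = 0 →
      (n : ℤ) ∣ v.ord f)
    (c₁ c₂ : K) (u₁ : E₁) (u₂ : E₂)
    (hN₁ : Algebra.norm E₁ f = algebraMap K E₁ c₁ * u₁ ^ n)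
    (hN₂ : Algebra.norm E₂ f = algebraMap K E₂ c₂ * u₂ ^ n) :
    ∃ (c : K) (u : F), c ≠ 0 ∧ u ≠ 0 ∧ f ^ (q + 1) = algebraMap K F c * u ^ n := by
  refine H.pow_eq_of_inv hq1 n hf hinv hoff ?_ ?_
  · -- any finset representing the fibre over `s = 1` will do: take the one from `hmid`
    classical
    have hx : Transcendental K (H.s - algebraMap K F 1)⁻¹ := by
      intro halg
      apply H.s_transcendental
      have h1 : IsAlgebraic K (H.s - algebraMap K F 1) := by
        have := halg.inv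
        rwa [inv_inv] at this
      have h2 := h1.add (isAlgebraic_algebraMap (A := F) (1 : K))
      rwa [sub_add_cancel] at h2
    set T : Finset (Place K F) :=
      (poleDiv (H.isRRField hq1) (H.s - algebraMap K F 1)⁻¹).support with hTdef
    have hT : ∀ v, v ∈ T ↔ 0 < v.ord (H.s - algebraMap K F 1) := by
      intro v
      rw [hTdef, Finsupp.mem_support_iff, poleDiv_apply, v.ord_inv, neg_neg]
      constructor
      · intro hv
        by_contra hcon
        exact hv (max_eq_right (by omega))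
      · intro hv
        rw [max_eq_left hv.le]
        omega
    exact (H.dvd_of_norms hq1 hE₁ hgen₁ hx₁ hE₂ hgen₂ hx₂ hf n c₁ c₂ u₁ u₂ hN₁ hN₂ T hT).1
  · intro T hT
    exact (H.dvd_of_norms hq1 hE₁ hgen₁ hx₁ hE₂ hgen₂ hx₂ hf n c₁ c₂ u₁ u₂ hN₁ hN₂ T hT).2.2

end HPCurve

end Fermat.Agent.HP
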