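import Mathlib
import Fermat.Agent.Lib.HP.YFun

set_option autoImplicit false
set_option linter.unusedSectionVars false
set_option linter.unusedVariables false
set_option linter.style.haveILetI false

/-!
# The curve `H_P`: the ends are exactly the poles of `Y`

* `H.IsEnd v` (`v.ord X₁ ≠ 0`), `isEnd_iff` : `v = pInf ∨ v = pZero ∨ v lies over s = 1`;
* `ord_Yf_neg_iff` : `v.ord Y < 0 ↔ H.IsEnd v`; `ord_Yf_inv_pos_iff`;
* `ord_Yf_sub_const_of_end` : at an end `ord (Y - a) = ord Y` (so the fibres `Y = a` avoid the ends);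
* `degree_poleDiv_Yf`, `degree_poleDiv_Yf_inv`, `degree_poleDiv_Yf_sub_inv` : all of degree `q (q + 1)`
  (pole divisor of the seed function `1 / (Y - a)` on `H_P`).
-/

noncomputable section

open IntermediateField AlgebraicCurve Polynomial

namespace Fermat.Agent.HP

open Fermat.Agent.RR Fermat.Agent.RRHur Fermat.Agent.GoodRedSmall

variable {K F : Type*} [Field K] [Field F] [Algebra K F] {q : ℕ}

namespace HPCurve

variable (H : HPCurve K F q)

/-- the ends of `H_P`: the zeros and poles of `X₁`. -/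
def IsEnd (v : Place K F) : Prop := v.ord H.X1 ≠ 0

theorem ord_Yf_neg_iff (v : Place K F) : v.ord H.Yf < 0 ↔ H.IsEnd v := by
  have hq : (2 : ℤ) ≤ (q : ℤ) := by exact_mod_cast H.q_two
  unfold IsEnd
  constructor
  · intro h h0
    have := H.ord_Yf_nonneg v h0
    omega
  · intro h
    rcases lt_or_gt_of_ne h with hneg | hpos
    · rw [H.ord_Yf_of_neg v hneg]
      nlinarith
    · rw [H.ord_Yf_of_pos v hpos]
      omega

theorem ord_Yf_inv_pos_iff (v : Place K F) : 0 < v.ord H.Yf⁻¹ ↔ H.IsEnd v := by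
  rw [v.ord_inv, ← H.ord_Yf_neg_iff]
  omega

/-- at an end, `ord (Y - a) = ord Y`. -/
theorem ord_Yf_sub_const_of_end (v : Place K F) (hv : H.IsEnd v) (a : K) :
    v.ord (H.Yf - algebraMap K F a) = v.ord H.Yf := by
  have h1 := (H.ord_Yf_neg_iff v).mpr hv
  rcases eq_or_ne a 0 with rfl | ha
  · rw [map_zero, sub_zero]
  have h2 : v.ord (-(algebraMap K F a)) = 0 := by
    rw [hp_ord_neg, Fermat.Agent.S24Res.ord_algebraMap]
  rw [sub_eq_add_neg]
  refine ord_add_eq_of_lt v H.Yf_ne (neg_ne_zero.mpr ?_) (by rw [h2]; exact h1)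
  rwa [Ne, map_eq_zero_iff _ (algebraMap K F).injective]

/-- the fibres `Y = a` avoid the ends. -/
theorem not_isEnd_of_zero (v : Place K F) (a : K) (hv : 0 < v.ord (H.Yf - algebraMap K F a)) :
    ¬ H.IsEnd v := by
  intro hend
  have h1 := H.ord_Yf_sub_const_of_end v hend a
  have h2 := (H.ord_Yf_neg_iff v).mpr hend
  omega

section Deg

variable [IsAlgClosed K] (hq1 : ((q + 1 : ℕ) : K) ≠ 0)

include hq1 in
theorem isEnd_iff (v : Place K F) :
    H.IsEnd v ↔ v = H.pInf hq1 ∨ v = H.pZero hq1 ∨ 0 < v.ord (H.s - algebraMap K F 1) := by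
  unfold IsEnd
  constructor
  · intro h
    rcases lt_or_gt_of_ne h with hneg | hpos
    · rcases (H.ord_X1_neg_iff hq1 v).mp hneg with h1 | h1
      · exact Or.inl h1
      · exact Or.inr (Or.inr h1)
    · exact Or.inr (Or.inl ((H.ord_X1_pos_iff hq1 v).mp hpos))
  · rintro (h | h | h)
    · exact ne_of_lt ((H.ord_X1_neg_iff hq1 v).mpr (Or.inl h))
    · exact ne_of_gt ((H.ord_X1_pos_iff hq1 v).mpr h)
    · exact ne_of_lt ((H.ord_X1_neg_iff hq1 v).mpr (Or.inr h))

include hq1 in
theorem isEnd_pInf : H.IsEnd (H.pInf hq1) := (H.isEnd_iff hq1 _).mpr (Or.inl rfl)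

include hq1 in
theorem isEnd_pZero : H.IsEnd (H.pZero hq1) := (H.isEnd_iff hq1 _).mpr (Or.inr (Or.inl rfl))

include hq1 in
theorem isEnd_of_mid (v : Place K F) (hv : 0 < v.ord (H.s - algebraMap K F 1)) : H.IsEnd v :=
  (H.isEnd_iff hq1 _).mpr (Or.inr (Or.inr hv))

/-- `deg (Y)_∞ = q (q + 1)`. -/
theorem degree_poleDiv_Yf :
    Divisor.degree (poleDiv (H.isRRField hq1) H.Yf) = ((q * (q + 1) : ℕ) : ℤ) := by
  haveI := H.finiteDimensional_Yf hq1
  rw [degree_poleDiv_eq_finrank (H.isRRField hq1) (H.Yf_transcendental hq1), H.finrank_Yf hq1]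

include hq1 in
theorem Yf_sub_transcendental (a : K) : Transcendental K (H.Yf - algebraMap K F a) := by
  intro halg
  apply H.Yf_transcendental hq1
  have := halg.add (isAlgebraic_algebraMap (A := F) a)
  rwa [sub_add_cancel] at this

include hq1 in
theorem adjoin_Yf_sub_inv (a : K) : K⟮(H.Yf - algebraMap K F a)⁻¹⟯ = K⟮H.Yf⟯ := by
  rw [Fermat.Agent.RR.adjoin_simple_inv_eq]
  apply le_antisymm
  · rw [IntermediateField.adjoin_simple_le_iff]
    exact sub_mem (IntermediateField.mem_adjoin_simple_self K _)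
      (IntermediateField.algebraMap_mem _ a)
  · rw [IntermediateField.adjoin_simple_le_iff]
    have h1 : H.Yf = (H.Yf - algebraMap K F a) + algebraMap K F a := by ring
    have h2 : (H.Yf - algebraMap K F a) + algebraMap K F a ∈ K⟮H.Yf - algebraMap K F a⟯ :=
      add_mem (IntermediateField.mem_adjoin_simple_self K _)
        (IntermediateField.algebraMap_mem _ a)
    rw [← h1] at h2
    exact h2

include hq1 in
theorem finrank_Yf_sub_inv (a : K) :
    Module.finrank K⟮(H.Yf - algebraMap K F a)⁻¹⟯ F = q * (q + 1) := by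
  rw [H.adjoin_Yf_sub_inv hq1 a]
  exact H.finrank_Yf hq1

/-- **the pole divisor of the seed function `1 / (Y - a)` has degree `q (q + 1)`** (and avoids the
ends, `not_isEnd_of_zero`). -/
theorem degree_poleDiv_Yf_sub_inv (a : K) :
    Divisor.degree (poleDiv (H.isRRField hq1) (H.Yf - algebraMap K F a)⁻¹) =
      ((q * (q + 1) : ℕ) : ℤ) := by
  have hx : Transcendental K (H.Yf - algebraMap K F a)⁻¹ := by
    intro halg
    apply H.Yf_sub_transcendental hq1 a
    have := halg.inv
    rwa [inv_inv] at this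
  haveI : FiniteDimensional K⟮(H.Yf - algebraMap K F a)⁻¹⟯ F := by
    rw [H.adjoin_Yf_sub_inv hq1 a]
    exact H.finiteDimensional_Yf hq1
  rw [degree_poleDiv_eq_finrank (H.isRRField hq1) hx, H.finrank_Yf_sub_inv hq1 a]

/-- `1 / (Y - a)` vanishes at the ends. -/
theorem ord_Yf_sub_inv_pos_of_end (v : Place K F) (hv : H.IsEnd v) (a : K) :
    0 < v.ord (H.Yf - algebraMap K F a)⁻¹ := by
  rw [v.ord_inv, H.ord_Yf_sub_const_of_end v hv a]
  have := (H.ord_Yf_neg_iff v).mpr hv
  omega

end Deg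

end HPCurve

end Fermat.Agent.HP
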